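import Fermat.Agent.Entry.QOne.Twist.Middle
import Fermat.Agent.Entry.QOne.Coboundary

/-!
# A combination of two data without twist
-/

set_option autoImplicit false
set_option linter.unusedSectionVars false
set_option linter.style.haveILetI false
set_option synthInstance.maxHeartbeats 400000

noncomputable section

open Function ModularCurve FLTAgent.Carayol FLTAgent.ModEq FLTAgent.GoodModel
open scoped MatrixGroups Classical

namespace FLTAgent.Entry.QOne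

variable {q M0 N' : ℕ} [NeZero M0] [NeZero N'] [NeZero q] [Fact q.Prime]
variable {C : Ctx q M0 N'} {p : ℕ} [Fact p.Prime]

theorem hs_comb (ψ₁ ψ₂ : Additive (CongruenceSubgroup.Gamma0 (q * (M0 * N') * q)) →+ ZMod p)
    (a₁ a₂ : ℕ) (x : SL(2, ℤ)) : hs (coprime_level C) (a₁ • ψ₁ + a₂ • ψ₂) x =
      a₁ • hs (coprime_level C) ψ₁ x + a₂ • hs (coprime_level C) ψ₂ x := by
  simp only [hs]
  split_ifs <;> simp

theorem exists_setting [NeZero (q * (M0 * N'))] (D : KDatum C p)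
    (hμ : ∀ a : ZMod p, ∃ w : C.W, (w : ℂ) = rootC p a) (hC : Cob (coprime_level C) D.ψ) :
    ∃ T : Setting C p, T.D = D := by
  obtain ⟨E, hE⟩ := hC (repG q (M0 * N')) (isRep_repG C)
  refine ⟨⟨D, hμ, E, fun γ c => ?_⟩, rfl⟩
  obtain ⟨u, rfl⟩ := QuotientGroup.mk_surjective c
  have hy : lab (p := p) (⟨(0, (u : ZMod q)), fun h => u.ne_zero h.symm⟩ : Pair q) =
      (QuotientGroup.mk u : Cls q p) :=
    congrArg QuotientGroup.mk (Units.ext (by simp))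
  have h := hE γ ⟨(0, (u : ZMod q)), fun h => u.ne_zero h.symm⟩
  rw [lab_nxt, hy] at h
  convert h using 3

namespace Setting

variable (T₁ T₂ : Setting C p)

theorem μc_pow (T : Setting C p) (a : ZMod p) (n : ℕ) : T.μc a ^ n = T.μc (n • a) := by
  induction n with
  | zero =>
    refine Subtype.ext (funext fun τ => ?_)
    rw [T.μc_apply, zero_nsmul, rootC_zero]
    rfl
  | succ n ih => rw [pow_succ, ih, ← T.μc_add, succ_nsmul]

theorem μS_pow' (T : Setting C p) (a : ZMod p) (n : ℕ) : T.μS a ^ n = T.μS (n • a) := by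
  induction n with
  | zero => rw [pow_zero, zero_nsmul, T.μS_zero]
  | succ n ih => rw [pow_succ, ih, ← T.μS_add, succ_nsmul]

/-- A combination of two settings. -/
def comb (a₁ a₂ : ℕ) : Setting C p where
  D := T₁.D.comb T₂.D a₁ a₂
  hμ := T₁.hμ
  Ec c := a₁ • T₁.Ec c + a₂ • T₂.Ec c
  hEc γ c := by
    simp only [KDatum.comb, hs_comb (C := C), Finset.sum_add_distrib, ← Finset.smul_sum, T₁.hEc, T₂.hEc,
      smul_sub]
    abel

theorem μc_comb (a₁ a₂ : ℕ) (a : ZMod p) :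
    (T₁.comb T₂ a₁ a₂).μc a = T₁.μc a ∧ T₂.μc a = T₁.μc a :=
  ⟨Subtype.ext (funext fun τ => ((T₁.comb T₂ a₁ a₂).μc_apply a τ).trans (T₁.μc_apply a τ).symm),
    Subtype.ext (funext fun τ => (T₂.μc_apply a τ).trans (T₁.μc_apply a τ).symm)⟩

theorem R_comb (a₁ a₂ : ℕ) (c : Cls q p) :
    (T₁.comb T₂ a₁ a₂).R c = T₁.R c ^ a₁ * T₂.R c ^ a₂ := by
  simp only [R, fibL, (T₁.μc_comb T₂ a₁ a₂ _).1, (T₁.μc_comb T₂ a₁ a₂ _).2, mul_pow, T₁.μc_pow,
    ← Finset.prod_pow, ← map_pow]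
  rw [show (T₁.comb T₂ a₁ a₂).Ec c = a₁ • T₁.Ec c + a₂ • T₂.Ec c from rfl, T₁.μc_add,
    show (T₁.comb T₂ a₁ a₂).D.Φ = T₁.D.Φ ^ a₁ * T₂.D.Φ ^ a₂ from rfl]
  simp only [map_mul, Finset.prod_mul_distrib]
  ring

variable {k : Type} [Field k] {Ω : Res C k} [IsDiscreteValuationRing C.S]

theorem tw_comb (hF₁ : ∀ g j, Ω.rs g j T₁.D.F ≠ 0) (hF₂ : ∀ g j, Ω.rs g j T₂.D.F ≠ 0)
    (a₁ a₂ : ℕ) (s : Move C) (c : Cls q p) :
    (T₁.comb T₂ a₁ a₂).tw s c = a₁ • T₁.tw s c + a₂ • T₂.tw s c := by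
  have hS : ∀ a, T₂.μS a = T₁.μS a ∧ (T₁.comb T₂ a₁ a₂).μS a = T₁.μS a := fun a =>
    ⟨Subtype.ext ((T₂.coe_μS a).trans (T₁.coe_μS a).symm),
      Subtype.ext (((T₁.comb T₂ a₁ a₂).coe_μS a).trans (T₁.coe_μS a).symm)⟩
  have h := (T₁.comb T₂ a₁ a₂).tw_spec s c
  simp only [R_comb, map_mul, map_pow, mul_pow, T₁.tw_spec, T₂.tw_spec, (hS _).2, (hS _).1] at h
  have h2 : (HahnSeries.C : C.S →+* LaurentSeries C.S) (T₁.μS (a₁ • T₁.tw s c + a₂ • T₂.tw s c)) =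
      HahnSeries.C (T₁.μS ((T₁.comb T₂ a₁ a₂).tw s c)) := by
    rw [T₁.μS_add, ← T₁.μS_pow', ← T₁.μS_pow', map_mul, map_pow, map_pow]
    refine mul_right_cancel₀ (mul_ne_zero (pow_ne_zero a₁
      (T₁.ser_R_ne hF₁ ((QuotientGroup.mk s.a : Cls q p) * c)))
      (pow_ne_zero a₂ (T₂.ser_R_ne hF₂ ((QuotientGroup.mk s.a : Cls q p) * c)))) ?_
    linear_combination h
  exact (T₁.μS_injective (HahnSeries.C_injective h2)).symm

end Setting

/-- Among two data with coboundaries, a combination has roots along two kinds of branches. -/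
theorem targetTwist : TargetTwist := by
  intro A q M0 N' M' p _ _ _ _ _ _ _ _ hA m E hp2 hpq D₁ D₂ hG₁ hG₂ hC₁ hC₂
  haveI := m.dvr
  haveI := m.noeth
  haveI := FrobTrace.isAlgClosed_residueField A
  have hp : p.Prime := Fact.out
  have hq : q.Prime := Fact.out
  have hqp : q ≠ p := fun h => by
    have h2 := hq.two_le
    have h3 : p ≤ q - 1 := Nat.le_of_dvd (Nat.sub_pos_of_lt h2) hpq
    rw [← h] at h3
    exact absurd h3 (Nat.not_le.2 (Nat.sub_lt hq.pos Nat.one_pos))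
  have hμ : ∀ a : ZMod p, ∃ w : m.C.W, (w : ℂ) = rootC p a := fun a =>
    exists_mem_W m hA (fun h => hqp ((Nat.prime_dvd_prime_iff_eq hq hp).1 h)) (rootC_pow p a)
  obtain ⟨T₁, rfl⟩ := exists_setting D₁ hμ hC₁
  obtain ⟨T₂, rfl⟩ := exists_setting D₂ hμ hC₂
  obtain ⟨σ, hgen, -⟩ := exists_generator (q := q) (p := p)
  obtain ⟨u, rfl⟩ := QuotientGroup.mk_surjective σ
  obtain ⟨s, rfl⟩ := exists_move (C := m.C) m.ρ u
  obtain ⟨a₁, a₂, hne, h0⟩ : ∃ a₁ a₂ : ℕ, ¬ (p ∣ a₁ ∧ p ∣ a₂) ∧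
      a₁ • T₁.tw s 1 + a₂ • T₂.tw s 1 = 0 := by
    by_cases h : T₁.tw s 1 = 0
    · exact ⟨1, 0, fun h1 => hp.not_dvd_one h1.1, by simp [h]⟩
    · refine ⟨(-T₂.tw s 1 / T₁.tw s 1).val, 1, fun h1 => hp.not_dvd_one h1.2, ?_⟩
      rw [nsmul_eq_mul, ZMod.natCast_zmod_val, div_mul_cancel₀ _ h, one_nsmul, neg_add_cancel]
  refine ⟨a₁, a₂, hne, ?_⟩
  set T := T₁.comb T₂ a₁ a₂
  have hF : ∀ g j, m.Ω.rs g j T.D.F ≠ 0 := fun g j => by
    show m.Ω.rs g j (T₁.D.F ^ a₁ * T₂.D.F ^ a₂) ≠ 0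
    rw [map_mul, map_pow, map_pow]
    exact mul_ne_zero (pow_ne_zero _ (hG₁.hF g j)) (pow_ne_zero _ (hG₂.hF g j))
  obtain ⟨hconst, htw⟩ := T.tw_eq_zero hp2 hqp s hgen m.ρ hF
    ((T₁.tw_comb T₂ hG₁.hF hG₂.hF a₁ a₂ s 1).trans h0)
  exact T.exists_middle htw m.ρ hqp hF hconst

end FLTAgent.Entry.QOne
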