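import Fermat.Agent.Carayol.StableFrac
import Fermat.Agent.Entry.QOne.Stabiliser

/-!
# Conjugates of functions fixed by the stabiliser

A function fixed by the stabiliser is, up to a denominator, a combination of functions of the
cover and polynomials in the coordinate. Hence so is the function whose expansion is the conjugate
of its expansion by an automorphism of the constants.
-/

set_option autoImplicit false
set_option linter.unusedSectionVars false
set_option linter.style.haveILetI false
set_option synthInstance.maxHeartbeats 400000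

noncomputable section

open UpperHalfPlane hiding I I_re I_im
open Function FLTAgent.ModEq FLTAgent.GoodModel ModularCurve FLTAgent.Carayol
open scoped MatrixGroups Classical

namespace FLTAgent.Entry.QOne

variable {q M0 N' : ℕ} [NeZero M0] [NeZero N'] [NeZero q] [Fact q.Prime] (C : Ctx q M0 N')

theorem mem_KG_of_triple {δ : SL(2, ℤ)} (hδ : δ ∈ CongruenceSubgroup.Gamma M0)
    (h : C.triple δ = C.triple 1) : δ ∈ KG q M0 (M0 * N') := by
  simp only [Ctx.triple, compg_one, Prod.mk.injEq] at h
  obtain ⟨he, hx, hz⟩ := h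
  refine ⟨hδ, ⟨(C.fix_rX0_iff hδ).1 hz, C.dvd_of_fix_sX hδ hx, C.dvd_of_fix_eta hδ he⟩, ?_⟩
  have hnz := (level_nz (n := M0 * N') C.hM rfl).2.2.2.2
  rw [Ctx.eta, f0, compg_fvv (n := M0 * N') rfl hδ] at he
  rcases (fvv_congr_iff C.hM rfl (hnz.vmul δ) hnz).1 he with e | e
  · exact Or.inl (by simpa [vmul] using e.2)
  · exact Or.inr (by simpa [vmul] using e.2)

/-- A function fixed by the stabiliser only depends on the triples. -/
theorem stab_of_fix {φ : ℍ → ℂ} (h : ∀ γ ∈ KG q M0 (M0 * N'), compg γ φ = φ) : C.Stab φ := by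
  intro γ γ' hγ hγ' htr
  have hδ : γ' * γ⁻¹ ∈ KG q M0 (M0 * N') := by
    refine mem_KG_of_triple C (mul_mem hγ' (inv_mem hγ)) ?_
    simp only [Ctx.triple, Prod.mk.injEq] at htr
    obtain ⟨h1, h2, h3⟩ := htr
    simp only [Ctx.triple, ← compg_compg, ← h1, ← h2, ← h3]
    simp only [compg_compg, mul_inv_cancel]
  calc compg γ φ = compg γ (compg (γ' * γ⁻¹) φ) := by rw [h _ hδ]
    _ = compg γ' φ := by rw [compg_compg, inv_mul_cancel_right]

/-- Stable functions are combinations of functions of the cover and the coordinate. -/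
theorem exists_eval_rep (hF : C.FixedPart) (φ : trRing C.S (M0 * (N' * q)))
    (hstab : C.Stab (φ : ℍ → ℂ)) :
    ∃ (n : ℕ) (d : C.R) (b : Fin n → Fin n → C.R) (P : Fin n → Polynomial C.S), d ≠ 0 ∧
      Subring.inclusion C.R_le d * φ = ∑ l, ∑ j, Subring.inclusion C.R_le (b l j) * C.evT (P j) := by
  haveI := C.isDomain_trRing
  obtain ⟨r, hr⟩ := C.exists_basis
  set e := Fintype.equivFin C.Idx
  set i0 := e C.one'
  set V : Matrix (Fin (Fintype.card C.Idx)) (Fin (Fintype.card C.Idx)) (trRing C.S (M0 * (N' * q))) :=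
    Matrix.of fun i j => C.trEl (e.symm i) (r j) with hVdef
  have hV : V.det ≠ 0 := fun h => hr (by
    have h2 := congrArg ser h
    rw [RingHom.map_det, map_zero] at h2
    exact h2)
  have hd : C.evT C.dltS * Subring.inclusion C.R_le C.dR = 1 := by
    rw [← C.map_dltW, ← C.incl_evR, ← map_mul, C.evR_dltW_mul_dR, map_one]
  have hTm : ∀ i j, ∃ u : C.R, Subring.inclusion C.R_le u = (V.transpose * V) i j := by
    intro i j
    have hs : (V.transpose * V) i j =
        ∑ l, trComp (C.rep l) (Subring.inclusion C.R_le (r i * r j)) := by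
      rw [Matrix.mul_apply]
      refine Fintype.sum_equiv e.symm _ _ fun x => ?_
      simp [hVdef, Ctx.trEl]
    obtain ⟨P, s, hP⟩ := C.exists_trace hF (r i * r j)
    refine ⟨C.evR P * C.dR ^ s, ?_⟩
    rw [hs, map_mul, map_pow, C.incl_evR, ← hP, mul_assoc, ← mul_pow, hd, one_pow, mul_one]
  have ht : ∀ j, ∃ (P : Polynomial C.S) (s : ℕ),
      (∑ m, trComp (C.rep (e.symm m)) φ * V m j) =
        C.evT P * Subring.inclusion C.R_le C.dR ^ s := by
    intro j
    have hs : ∑ m, trComp (C.rep (e.symm m)) φ * V m j =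
        ∑ l, trComp (C.rep l) (φ * Subring.inclusion C.R_le (r j)) := by
      refine Fintype.sum_equiv e.symm _ _ fun x => ?_
      simp [hVdef, Ctx.trEl]
    obtain ⟨P, s, hP⟩ := C.exists_poly_el (∑ l, trComp (C.rep l) (φ * Subring.inclusion C.R_le (r j)))
      (fun γ hγ => by
        rw [AddSubmonoidClass.coe_finsetSum]
        refine C.sum_invariant (φ := ((φ * Subring.inclusion C.R_le (r j) :
          trRing C.S (M0 * (N' * q))) : ℍ → ℂ)) ?_ hγ
        intro γ1 γ2 h1 h2 htr
        show compg γ1 ((φ : ℍ → ℂ) * (r j : ℍ → ℂ)) = compg γ2 ((φ : ℍ → ℂ) * (r j : ℍ → ℂ))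
        rw [map_mul, map_mul, hstab γ1 γ2 h1 h2 htr, C.stab_R (r j) γ1 γ2 h1 h2 htr])
    exact ⟨P, s, by rw [hs, ← hP, mul_assoc, ← mul_pow, hd, one_pow, mul_one]⟩
  choose Tm hTm using hTm
  choose P s ht using ht
  have hmap : (Subring.inclusion C.R_le).mapMatrix (Matrix.of Tm) = V.transpose * V :=
    Matrix.ext fun i j => hTm i j
  have hdet : Subring.inclusion C.R_le (Matrix.of Tm).det = (V.transpose * V).det := by
    rw [RingHom.map_det, hmap]
  have hadj : ∀ i j, Subring.inclusion C.R_le ((Matrix.of Tm).adjugate i j) =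
      (V.transpose * V).adjugate i j := fun i j => by
    have h := congrFun (congrFun ((Subring.inclusion C.R_le).map_adjugate (Matrix.of Tm)) i) j
    rw [hmap] at h
    exact h
  have hφ0 : trComp (C.rep (e.symm i0)) φ = φ := by
    refine Subtype.ext ?_
    show compg (C.rep (e.symm i0)) (φ : ℍ → ℂ) = φ
    rw [Equiv.symm_apply_apply]
    refine (hstab _ 1 (C.rep_mem _) (one_mem _) ?_).trans (compg_one _)
    exact C.triple_rep C.one'
  have hr0 : ∀ l, V i0 l = Subring.inclusion C.R_le (r l) := fun l => by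
    show C.trEl (e.symm i0) (r l) = _
    rw [Equiv.symm_apply_apply, C.trEl_one]
  have h1 := det_mul_eq_sum V hV (fun m => trComp (C.rep (e.symm m)) φ) i0
  simp only [hφ0, hr0, ← hadj, ← hdet, ht] at h1
  refine ⟨Fintype.card C.Idx, (Matrix.of Tm).det,
    fun l j => (Matrix.of Tm).adjugate l j * C.dR ^ s j * r l, P, fun h => ?_, ?_⟩
  · have := congrArg (Subring.inclusion C.R_le) h
    rw [hdet, map_zero, Matrix.det_mul, Matrix.det_transpose] at this
    exact mul_ne_zero hV hV this
  rw [h1]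
  refine Finset.sum_congr rfl fun l _ => ?_
  rw [Finset.sum_mul]
  refine Finset.sum_congr rfl fun j _ => ?_
  rw [map_mul, map_mul, map_pow]
  ring

/-- The conjugate of a stable function. -/
theorem exists_conj (hF : C.FixedPart) {σ : C.S ≃+* C.S} (hσ : ∀ w, σ (C.inc w) = C.inc w)
    (φ : trRing C.S (M0 * (N' * q))) (hstab : C.Stab (φ : ℍ → ℂ)) :
    ∃ (d : C.R) (ψ : trRing C.S (M0 * (N' * q))), d ≠ 0 ∧
      (∀ γ ∈ KG q M0 (M0 * N'), trComp γ ψ = ψ) ∧
      ser ψ = C.embAt 1 d * coeffMap σ.toRingHom (ser φ) := by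
  obtain ⟨n, d, b, P, hd, h⟩ := exists_eval_rep C hF φ hstab
  refine ⟨d, ∑ l, ∑ j, Subring.inclusion C.R_le (b l j) * C.evT ((P j).map σ.toRingHom), hd,
    fun γ hγ => ?_, ?_⟩
  · simp only [map_sum, map_mul]
    refine Finset.sum_congr rfl fun l _ => Finset.sum_congr rfl fun j _ => ?_
    rw [C.trComp_evT hγ.1]
    exact congrArg (· * _) (Subtype.ext (compg_of_mem C hγ _))
  · have h1 := congrArg (coeffMap σ.toRingHom) (congrArg ser h)
    rw [map_mul, map_mul, C.ser_incl, C.coeffMap_embAt_one hF hσ] at h1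
    rw [h1]
    have hY : coeffMap σ.toRingHom C.Ys = C.Ys := by rw [Ctx.Ys, ← coeffMap_qExpand, C.fix_inc hσ]
    simp only [map_sum, map_mul, C.ser_incl, C.coeffMap_embAt_one hF hσ, C.ser_evT,
      Polynomial.eval₂_map]
    refine Finset.sum_congr rfl fun l _ => Finset.sum_congr rfl fun j _ => ?_
    rw [Polynomial.hom_eval₂, hY]
    congr 2
    ext x : 1
    simp [HahnSeries.C_apply, coeffMap_single]

end FLTAgent.Entry.QOne
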