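import Fermat.Agent.Entry.QOne.Twist.Products
import Fermat.Agent.Entry.QOne.Twist.Descend

/-!
# The twist is one constant

The coefficients of the product of `X - ∑ tⁱ R (aⁱ c)` over the labels `c` are fixed by the
stabiliser, hence so are those of its conjugate. So the stabiliser permutes the conjugate sums; for
enough values of `t` this gives a relation between the products and the twists, and the residues
force the differences of the twists to vanish.
-/

set_option autoImplicit false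
set_option linter.unusedSectionVars false
set_option linter.style.haveILetI false
set_option linter.unnecessarySeqFocus false
set_option synthInstance.maxHeartbeats 400000

noncomputable section

open UpperHalfPlane hiding I I_re I_im
open Function FLTAgent.ModEq FLTAgent.GoodModel ModularCurve FLTAgent.Carayol Polynomial
open FLTAgent.PeriodHecke (mat)
open scoped MatrixGroups Classical

namespace FLTAgent.Entry.QOne

variable {q M0 N' : ℕ} [NeZero M0] [NeZero N'] [NeZero q] [Fact q.Prime]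

/-- A unipotent element congruent to `1` modulo `L` with prescribed residue modulo `q`. -/
def uniU (q L : ℕ) [Fact q.Prime] (x : ZMod q) : SL(2, ℤ) :=
  ⟨!![1, (L : ℤ) * (x * (L : ZMod q)⁻¹).val; 0, 1], by rw [Matrix.det_fin_two_of]; ring⟩

/-- The lower one. -/
def uniV (q L : ℕ) [Fact q.Prime] (x : ZMod q) : SL(2, ℤ) :=
  ⟨!![1, 0; (L : ℤ) * (x * (L : ZMod q)⁻¹).val, 1], by rw [Matrix.det_fin_two_of]; ring⟩

theorem map_uniU {L : ℕ} (hL : (L : ZMod q) ≠ 0) (x : ZMod q) :
    ((uniU q L x : SL(2, ℤ)) : Matrix (Fin 2) (Fin 2) ℤ).map (Int.cast : ℤ → ZMod q) =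
      !![1, x; 0, 1] := by
  ext i j
  fin_cases i <;> fin_cases j <;> simp [uniU] <;> field_simp

theorem map_uniV {L : ℕ} (hL : (L : ZMod q) ≠ 0) (x : ZMod q) :
    ((uniV q L x : SL(2, ℤ)) : Matrix (Fin 2) (Fin 2) ℤ).map (Int.cast : ℤ → ZMod q) =
      !![1, 0; x, 1] := by
  ext i j
  fin_cases i <;> fin_cases j <;> simp [uniV] <;> field_simp

theorem uniU_mem {L : ℕ} (x : ZMod q) : uniU q L x ∈ CongruenceSubgroup.Gamma L :=
  CongruenceSubgroup.Gamma_mem.2 ⟨Int.cast_one, by simp [uniU], Int.cast_zero, Int.cast_one⟩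

theorem uniV_mem {L : ℕ} (x : ZMod q) : uniV q L x ∈ CongruenceSubgroup.Gamma L :=
  CongruenceSubgroup.Gamma_mem.2 ⟨Int.cast_one, Int.cast_zero, by simp [uniV], Int.cast_one⟩

/-- Every label is moved to every label by the stabiliser. -/
theorem exists_chi_eq (C : Ctx q M0 N') {p : ℕ} [Fact p.Prime] (hp2 : p ≠ 2) (ξ : Cls q p) :
    ∃ (γ : SL(2, ℤ)) (hγ : γ ∈ KG q M0 (M0 * N')),
      chi p (toG0 (coprime_level C) hγ) = ξ := by
  obtain ⟨x, rfl⟩ := QuotientGroup.mk_surjective ξ
  obtain ⟨j, hj⟩ : Odd (p ^ q) := ((Fact.out : p.Prime).odd_of_ne_two hp2).pow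
  set u : (ZMod q)ˣ := x ^ (j + 1)
  set L := M0 * N'
  set a : ZMod q := ((u⁻¹ : (ZMod q)ˣ) : ZMod q)
  set γ := uniU q L a * uniV q L (-(u : ZMod q)) * uniU q L a *
    (uniU q L (-1) * uniV q L 1 * uniU q L (-1)) with hγdef
  have hL : (L : ZMod q) ≠ 0 := C.ne_zero_mod.1
  have hau : a * (u : ZMod q) = 1 := Units.inv_mul u
  have hU0 : ∀ z, uniU q L z ∈ CongruenceSubgroup.Gamma L := fun z => uniU_mem z
  have hV0 : ∀ z, uniV q L z ∈ CongruenceSubgroup.Gamma L := fun z => uniV_mem z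
  have hmem : γ ∈ CongruenceSubgroup.Gamma L :=
    mul_mem (mul_mem (mul_mem (hU0 _) (hV0 _)) (hU0 _)) (mul_mem (mul_mem (hU0 _) (hV0 _)) (hU0 _))
  have hq : (γ : Matrix (Fin 2) (Fin 2) ℤ).map (Int.cast : ℤ → ZMod q) =
      !![a, 0; 0, (u : ZMod q)] := by
    have hm : ∀ X Y : Matrix (Fin 2) (Fin 2) ℤ, (X * Y).map (Int.cast : ℤ → ZMod q) =
        X.map (Int.cast : ℤ → ZMod q) * Y.map (Int.cast : ℤ → ZMod q) := fun X Y =>
      Matrix.map_mul (f := Int.castRingHom (ZMod q))
    simp only [hγdef, Matrix.SpecialLinearGroup.coe_mul, hm, map_uniU hL, map_uniV hL,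
      Matrix.mul_fin_two]
    ext i j
    fin_cases i <;> fin_cases j <;> simp <;> grind
  have e : ∀ i j, ((γ i j : ℤ) : ZMod q) = !![a, 0; 0, (u : ZMod q)] i j := fun i j =>
    congrFun (congrFun hq i) j
  obtain ⟨l00, l01, l10, l11⟩ := CongruenceSubgroup.Gamma_mem.1 hmem
  have hγ : γ ∈ KG q M0 L :=
    ⟨Ctx.mem_M0_of_mem_m hmem, ⟨(ZMod.intCast_zmod_eq_zero_iff_dvd _ _).1 (e 0 1),
      (ZMod.intCast_zmod_eq_zero_iff_dvd _ _).1 (e 1 0), (ZMod.intCast_zmod_eq_zero_iff_dvd _ _).1 l10⟩,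
      Or.inl l11⟩
  refine ⟨γ, hγ, ?_⟩
  have e0 : ((mat (toG0 (coprime_level C) hγ) 0 0 : ℤ) : ZMod q) = a := e 0 0
  have e1 : ((mat (toG0 (coprime_level C) hγ) 1 1 : ℤ) : ZMod q) = u := e 1 1
  rw [chi_apply, dcl_eq (by rw [e0]; exact Units.ne_zero _) (by rw [e1]; exact Units.ne_zero _)]
  refine (QuotientGroup.eq).2 ⟨x⁻¹, ?_⟩
  show (x⁻¹) ^ (p ^ q) = _
  have key : ∀ w : (ZMod q)ˣ, (w : ZMod q) = (u : ZMod q) * u → (x⁻¹) ^ (p ^ q) = w⁻¹ * x := by
    intro w hw
    rw [show w = u * u from Units.ext (by rw [hw, Units.val_mul]), hj]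
    simp only [u]
    group
  refine key _ ?_
  rw [Units.val_div_eq_div_val, Units.val_mk0, Units.val_mk0, e0, e1,
    show a = (u : ZMod q)⁻¹ from Units.val_inv_eq_inv_val u, div_inv_eq_mul]

/-- Finitely many candidates for a polynomial identity at many points give one identity. -/
theorem exists_common {A : Type*} [CommRing A] [IsDomain A]
    (hA : Injective (Nat.cast : ℕ → A)) {ι : Type*} [Fintype ι] [Nonempty ι] (m : ℕ) (F : ℕ → A)
    (G : ι → ℕ → A) (hm : 0 < m)
    (h : ∀ t : ℕ, ∃ c, ∑ i ∈ Finset.range m, (t : A) ^ i * F i =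
      ∑ i ∈ Finset.range m, (t : A) ^ i * G c i) :
    ∃ c, ∀ i < m, F i = G c i := by
  choose f hf using fun t : Fin (Fintype.card ι * m + 1) => h t
  obtain ⟨c, hc⟩ := Fintype.exists_lt_card_fiber_of_mul_lt_card (f := f) (n := m - 1) (by
    rw [Fintype.card_fin]
    exact Nat.lt_succ_of_le (Nat.mul_le_mul_left _ (Nat.sub_le _ _)))
  refine ⟨c, ?_⟩
  set Q : Polynomial A := ∑ i ∈ Finset.range m, Polynomial.C (F i - G c i) * X ^ i with hQ
  have hQ0 : Q = 0 := by
    refine Polynomial.eq_zero_of_natDegree_lt_card_of_eval_eq_zero' Q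
      ((Finset.univ.filter fun t : Fin (Fintype.card ι * m + 1) => f t = c).image
        fun t : Fin (Fintype.card ι * m + 1) => ((t : ℕ) : A)) (fun z hz => ?_) ?_
    · obtain ⟨t, ht, rfl⟩ := Finset.mem_image.1 hz
      have e := hf t
      rw [(Finset.mem_filter.1 ht).2] at e
      simp only [hQ, Polynomial.eval_finsetSum, Polynomial.eval_mul, Polynomial.eval_C,
        Polynomial.eval_pow, Polynomial.eval_X, sub_mul, Finset.sum_sub_distrib, sub_eq_zero]
      simpa only [mul_comm] using e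
    · rw [Finset.card_image_of_injective _ fun t t' h => Fin.ext (hA h)]
      refine lt_of_le_of_lt (Polynomial.natDegree_sum_le_of_forall_le _ _ fun i hi => ?_) hc
      exact (Polynomial.natDegree_C_mul_X_pow_le _ _).trans (by
        have := Finset.mem_range.1 hi; omega)
  intro i hi
  have h := congrArg (fun z : Polynomial A => z.coeff i) hQ0
  simp only [hQ, Polynomial.finsetSum_coeff, Polynomial.coeff_C_mul_X_pow, Finset.sum_ite_eq,
    Finset.mem_range, hi, if_true, Polynomial.coeff_zero] at h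
  exact sub_eq_zero.1 h

/-- A permuted family whose expansions are conjugated stays permuted. -/
theorem exists_perm_conj (C : Ctx q M0 N') (hF : C.FixedPart) {σ : C.S ≃+* C.S}
    (hσ : ∀ w, σ (C.inc w) = C.inc w) {ι : Type*} [Fintype ι]
    (Y Z : ι → trRing C.S (M0 * (N' * q)))
    (hser : ∀ c, coeffMap σ.toRingHom (ser (Y c)) = ser (Z c))
    (hY : ∀ δ ∈ KG q M0 (M0 * N'), ∃ π : ι ≃ ι, ∀ c, trComp δ (Y c) = Y (π c))
    {γ : SL(2, ℤ)} (hγ : γ ∈ KG q M0 (M0 * N')) (c : ι) : ∃ c', trComp γ (Z c) = Z c' := by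
  haveI := C.isDomain_trRing
  set P := ∏ c, (X - Polynomial.C (Y c)) with hP
  set Q := ∏ c, (X - Polynomial.C (Z c)) with hQ
  have hinv : ∀ δ ∈ KG q M0 (M0 * N'), P.map (trComp δ) = P := fun δ hδ => by
    obtain ⟨π, hπ⟩ := hY δ hδ
    rw [hP, Polynomial.map_prod]
    refine Fintype.prod_equiv π _ _ fun c => ?_
    rw [Polynomial.map_sub, Polynomial.map_X, Polynomial.map_C, hπ]
  have hmap : P.map ((coeffMap σ.toRingHom).comp ser) = Q.map ser := by
    simp only [hP, hQ, Polynomial.map_prod, Polynomial.map_sub, Polynomial.map_X, Polynomial.map_C,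
      RingHom.comp_apply, hser]
  have hfix : Q.map (trComp γ) = Q := by
    refine Polynomial.ext fun i => ?_
    rw [Polynomial.coeff_map]
    obtain ⟨d, ψ, hd, hψ, hψs⟩ := exists_conj C hF hσ (P.coeff i)
      (stab_of_fix C fun δ hδ => congrArg Subtype.val (show trComp δ (P.coeff i) = P.coeff i by
        rw [← Polynomial.coeff_map, hinv δ hδ]))
    have hc := congrArg (fun z : Polynomial (LaurentSeries C.S) => z.coeff i) hmap
    simp only [Polynomial.coeff_map, RingHom.comp_apply] at hc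
    rw [hc, ← C.ser_incl, ← map_mul] at hψs
    have h2 := hψ γ hγ
    rw [ser_injective hψs, map_mul, show trComp γ (Subring.inclusion C.R_le d) =
      Subring.inclusion C.R_le d from Subtype.ext (compg_of_mem C hγ d)] at h2
    exact mul_left_cancel₀ (fun h => hd (Subring.inclusion_injective C.R_le
      (h.trans (map_zero _).symm))) h2
  have h1 : Q.eval (Z c) = 0 := by
    rw [hQ, Polynomial.eval_prod]
    exact Finset.prod_eq_zero (Finset.mem_univ c) (by simp)
  have h0 : Q.eval (trComp γ (Z c)) = 0 := by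
    rw [← hfix, Polynomial.eval_map, Polynomial.eval₂_at_apply, h1, map_zero]
  rw [hQ, Polynomial.eval_prod, Finset.prod_eq_zero_iff] at h0
  obtain ⟨c', -, hc'⟩ := h0
  exact ⟨c', sub_eq_zero.1 (by simpa using hc')⟩

namespace Setting

variable {C : Ctx q M0 N'} {p : ℕ} [Fact p.Prime] (T : Setting C p)
variable {k : Type} [Field k] {Ω : Res C k} [IsDiscreteValuationRing C.S]

theorem φ_μS_injective (hqp : q ≠ p) : Injective fun a : ZMod p => Ω.φ (T.μS a) := by
  haveI := Ω.charK
  intro a b h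
  by_contra hne
  have hprim : IsPrimitiveRoot (T.μS (a - b)) p :=
    IsPrimitiveRoot.iff_orderOf.2 (orderOf_eq_prime (T.μS_pow _)
      fun e => hne (sub_eq_zero.1 (T.μS_injective (e.trans T.μS_zero.symm))))
  have h1 : Ω.φ (T.μS (a - b)) = 1 := by
    have h2 : Ω.φ (T.μS (a - b)) * Ω.φ (T.μS b) = 1 * Ω.φ (T.μS b) := by
      rw [← map_mul, ← T.μS_add, sub_add_cancel, one_mul]; exact h
    refine mul_right_cancel₀ (fun h0 => ?_) h2
    have := congrArg Ω.φ (T.μS_pow b)
    rw [map_pow, h0, zero_pow (Fact.out : p.Prime).ne_zero, map_one] at this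
    exact zero_ne_one this
  have h3 := congrArg Ω.φ (hprim.geom_sum_eq_zero (Fact.out : p.Prime).one_lt)
  simp only [map_sum, map_pow, h1, one_pow, Finset.sum_const, Finset.card_range, nsmul_one,
    map_zero] at h3
  exact hqp ((Nat.prime_dvd_prime_iff_eq C.hq Fact.out).1 ((CharP.cast_eq_zero_iff k q p).1 h3))

theorem R_ne (hF : ∀ g j, Ω.rs g j T.D.F ≠ 0) (c : Cls q p) : T.R c ≠ 0 := fun h =>
  T.ser_R_ne hF c (by rw [h, map_zero])

theorem eq_of_μc_mul (hF : ∀ g j, Ω.rs g j T.D.F ≠ 0) {a b : ZMod p} {c : Cls q p}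
    (h : T.μc a * T.R c = T.μc b * T.R c) : a = b := by
  haveI := C.isDomain_trRing
  have h1 := congrArg ser (mul_right_cancel₀ (T.R_ne hF c) h)
  rw [T.ser_μc, T.ser_μc] at h1
  exact T.μS_injective (HahnSeries.C_injective h1)

variable (hp2 : p ≠ 2) (hqp : q ≠ p) (s : Move C)
variable (hgen : ∀ c : Cls q p, ∃ i : ℕ, c = (QuotientGroup.mk s.a : Cls q p) ^ i)

theorem natCast_trRing_injective : Injective (Nat.cast : ℕ → trRing C.S (M0 * (N' * q))) :=
  fun i j h => by
    have h1 := congrArg (fun z : trRing C.S (M0 * (N' * q)) => (z : ℍ → ℂ) UpperHalfPlane.I) h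
    simpa using h1

include hp2 hgen in
set_option maxHeartbeats 400000 in
/-- The relation between the products and the twists. -/
theorem exists_relation (hfix : C.FixedPart) :
    ∃ η : Cls q p, ∀ x, T.μc (T.tw s x) * T.R x =
      T.μc (T.tw s (η * x)) * T.R ((QuotientGroup.mk s.a : Cls q p) * (η * x)) := by
  haveI := C.isDomain_trRing
  set a : Cls q p := QuotientGroup.mk s.a
  set m := Fintype.card (Cls q p) with hm
  obtain ⟨γ, hγ, hχ⟩ := exists_chi_eq C hp2 (a⁻¹)
  set Y : ℕ → Cls q p → trRing C.S (M0 * (N' * q)) := fun t c =>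
    ∑ i ∈ Finset.range m, (t : trRing C.S (M0 * (N' * q))) ^ i * T.R (a ^ i * c) with hY
  set Z : ℕ → Cls q p → trRing C.S (M0 * (N' * q)) := fun t c =>
    ∑ i ∈ Finset.range m, (t : trRing C.S (M0 * (N' * q))) ^ i *
      (T.μc (T.tw s (a ^ i * c)) * T.R (a * (a ^ i * c))) with hZ
  have hser : ∀ t c, coeffMap s.σ.toRingHom (ser (Y t c)) = ser (Z t c) := fun t c => by
    simp only [hY, hZ, map_sum, map_mul, map_pow, map_natCast]
    exact Finset.sum_congr rfl fun i _ => by rw [T.tw_spec, T.ser_μc]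
  have hperm : ∀ t : ℕ, ∃ c', ∑ i ∈ Finset.range m, (t : trRing C.S (M0 * (N' * q))) ^ i *
      (T.μc (T.tw s (a ^ i)) * T.R (a * a ^ i * a⁻¹)) =
      ∑ i ∈ Finset.range m, (t : trRing C.S (M0 * (N' * q))) ^ i *
        (T.μc (T.tw s (a ^ i * c')) * T.R (a * (a ^ i * c'))) := by
    intro t
    obtain ⟨c', hc'⟩ := exists_perm_conj C hfix s.hσ (Y t) (Z t) (hser t) (fun δ hδ =>
      ⟨Equiv.mulRight (chi p (toG0 (coprime_level C) hδ)), fun c => by
        simp only [hY, map_sum, map_mul, map_pow, map_natCast, T.trComp_R hδ, Equiv.coe_mulRight,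
          mul_assoc]⟩) hγ 1
    refine ⟨c', Eq.trans ?_ hc'⟩
    simp only [hZ, map_sum, map_mul, map_pow, map_natCast, T.trComp_μc, T.trComp_R hγ, hχ, mul_one]
  obtain ⟨c', hrel⟩ := exists_common (natCast_trRing_injective (C := C)) m
    (fun i => T.μc (T.tw s (a ^ i)) * T.R (a * a ^ i * a⁻¹))
    (fun c i => T.μc (T.tw s (a ^ i * c)) * T.R (a * (a ^ i * c))) Fintype.card_pos hperm
  refine ⟨c', fun x => ?_⟩
  obtain ⟨i, rfl⟩ := hgen x
  have hi : a ^ i = a ^ (i % m) := pow_eq_pow_mod i (pow_card_eq_one (x := a))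
  have h := hrel (i % m) (Nat.mod_lt _ Fintype.card_pos)
  rw [← hi, mul_inv_eq_of_eq_mul (mul_comm a (a ^ i)), mul_comm (a ^ i) c'] at h
  exact h

include hp2 hqp hgen in
set_option maxHeartbeats 800000 in
/-- The twists are constant. -/
theorem tw_const (ρ : Ram Ω) (hF : ∀ g j, Ω.rs g j T.D.F ≠ 0) (c : Cls q p) :
    T.tw s c = T.tw s 1 := by
  haveI := C.isDomain_trRing
  obtain ⟨η, hη⟩ := T.exists_relation hp2 s hgen Ω.fixed
  set a : Cls q p := QuotientGroup.mk s.a
  set h : Cls q p → ZMod p := T.tw s with hh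
  set θ := a * η with hθ
  have e1 : ∀ x, T.R x = T.μc (h (η * x) - h x) * T.R (θ * x) := fun x => by
    refine mul_left_cancel₀ (a := T.μc (h x)) ?_ ?_
    · intro h0
      have := congrArg ser h0
      rw [T.ser_μc, map_zero] at this
      have h1 := congrArg (fun z => z * T.μS (-h x)) (HahnSeries.C_injective (this.trans (map_zero _).symm))
      simp only [← T.μS_add, add_neg_cancel, T.μS_zero, zero_mul] at h1
      exact one_ne_zero h1
    · rw [hη x]
      refine Eq.trans ?_ (mul_assoc _ _ _)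
      rw [← T.μc_add, add_sub_cancel, hθ, mul_assoc a η x]
  set D : Cls q p → ZMod p := fun x => h (η * x) - h x with hD
  have hDc : ∀ x, D x = D 1 := fun x => by
    obtain ⟨γ, hγ, hχ⟩ := exists_chi_eq C hp2 x
    have h1 := congrArg (trComp γ) (e1 1)
    rw [map_mul, T.trComp_μc, T.trComp_R hγ, T.trComp_R hγ, hχ, mul_one θ, one_mul, e1 x] at h1
    exact T.eq_of_μc_mul hF h1
  set d := D 1
  have e2 : ∀ x, ser (T.R x) = HahnSeries.C (T.μS d) * ser (T.R (θ * x)) := fun x => by
    conv_lhs => rw [e1 x, map_mul, T.ser_μc]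
    rw [show h (η * x) - h x = d from hDc x]
  have hθh : ∀ x, h (θ * x) = h x := fun x => by
    have h1 := congrArg (coeffMap s.σ.toRingHom) (e2 x)
    rw [map_mul, T.tw_spec, T.tw_spec, coeffMap_C,
      show s.σ.toRingHom (T.μS d) = T.μS d from s.hσ _,
      e2 (a * x), mul_left_comm a θ x] at h1
    have h3 : HahnSeries.C (T.μS (h x + d)) * ser (T.R (θ * (a * x))) =
        HahnSeries.C (T.μS (d + h (θ * x))) * ser (T.R (θ * (a * x))) := by
      simp only [T.μS_add, map_mul]
      linear_combination h1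
    have h2 := T.μS_injective (HahnSeries.C_injective
      (mul_right_cancel₀ (T.ser_R_ne hF _) h3))
    linear_combination -h2
  have hstep : ∀ y, h (a * y) = h y - d := fun y => by
    have h1 := hθh (η⁻¹ * y)
    rw [hθ, mul_assoc, mul_inv_cancel_left] at h1
    have h2 := hDc (η⁻¹ * y)
    simp only [hD, mul_inv_cancel_left] at h2
    rw [h1]
    linear_combination -h2
  have hpow : ∀ (i : ℕ) x, h (a ^ i * x) = h x - (i : ZMod p) * d := by
    intro i
    induction i with
    | zero => intro x; simp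
    | succ i ih =>
      intro x
      rw [pow_succ', mul_assoc, hstep, ih]
      push_cast
      ring
  obtain ⟨j, hj⟩ := hgen θ
  have hjd : (j : ZMod p) * d = 0 := by
    have h1 := hθh 1
    rw [hj, hpow] at h1
    linear_combination -h1
  have hS : ∀ (i : ℕ) x, ∃ S : ZMod p, 2 * S = 2 * (i : ZMod p) * h x - d * i * ((i : ZMod p) - 1) ∧
      Ω.rd (ser (T.R x)) = HahnSeries.C (Ω.φ (T.μS S)) * Ω.rd (ser (T.R (a ^ i * x))) := by
    intro i
    induction i with
    | zero => intro x; exact ⟨0, by simp, by simp [T.μS_zero]⟩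
    | succ i ih =>
      intro x
      obtain ⟨S, h1, h2⟩ := ih x
      refine ⟨S + h (a ^ i * x), ?_, ?_⟩
      · rw [hpow]
        push_cast
        linear_combination h1
      · rw [h2, T.rd_tw ρ s (a ^ i * x), pow_succ', mul_assoc a (a ^ i) x]
        simp only [T.μS_add, map_mul]
        ring
  have hd0 : d = 0 := by
    rcases eq_or_ne (j : ZMod p) 0 with hj0 | hj0
    · obtain ⟨S, h1, h2⟩ := hS j 1
      have h3 := congrArg Ω.rd (e2 1)
      rw [map_mul, Res.rd, coeffMap_C, ← Res.rd, hj, h2] at h3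
      have hSd : S = d := T.φ_μS_injective (Ω := Ω) hqp (HahnSeries.C_injective
        (mul_right_cancel₀ (T.rd_ser_R_ne hF _) h3))
      rw [hj0, hSd] at h1
      have h4 : (2 : ZMod p) * d = 0 := by linear_combination h1
      refine (mul_eq_zero.1 h4).resolve_left fun e => hp2 ?_
      exact (Nat.prime_dvd_prime_iff_eq Fact.out Nat.prime_two).1
        ((ZMod.natCast_eq_zero_iff 2 p).1 (by exact_mod_cast e))
    · exact (mul_eq_zero.1 hjd).resolve_left hj0
  obtain ⟨i, rfl⟩ := hgen c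
  have := hpow i 1
  rw [hd0, mul_zero, sub_zero, mul_one] at this
  exact this

include hp2 hqp hgen in
/-- If the constant of one move vanishes, no move twists. -/
theorem tw_eq_zero (ρ : Ram Ω) (hF : ∀ g j, Ω.rs g j T.D.F ≠ 0) (h0 : T.tw s 1 = 0) :
    (∀ c, Ω.rd (ser (T.R c)) = Ω.rd (ser (T.R 1))) ∧ ∀ (t : Move C) c, T.tw t c = 0 := by
  set a : Cls q p := QuotientGroup.mk s.a
  have hstep : ∀ c, Ω.rd (ser (T.R c)) = Ω.rd (ser (T.R (a * c))) := fun c => by
    conv_lhs => rw [T.rd_tw ρ s c, T.tw_const hp2 hqp s hgen ρ hF c, h0, T.μS_zero, map_one,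
      map_one, one_mul]
  have hall : ∀ i : ℕ, Ω.rd (ser (T.R (a ^ i))) = Ω.rd (ser (T.R 1)) := by
    intro i
    induction i with
    | zero => rw [pow_zero]
    | succ i ih => rw [pow_succ', ← hstep, ih]
  have hconst : ∀ c, Ω.rd (ser (T.R c)) = Ω.rd (ser (T.R 1)) := fun c => by
    obtain ⟨i, rfl⟩ := hgen c
    exact hall i
  refine ⟨hconst, fun t c => T.φ_μS_injective (Ω := Ω) hqp ?_⟩
  have h := T.rd_tw ρ t c
  rw [hconst, hconst ((QuotientGroup.mk t.a : Cls q p) * c)] at h
  have h1 : HahnSeries.C (Ω.φ (T.μS (T.tw t c))) = (1 : LaurentSeries k) :=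
    mul_right_cancel₀ (T.rd_ser_R_ne hF 1) (by rw [one_mul]; exact h.symm)
  show Ω.φ (T.μS (T.tw t c)) = Ω.φ (T.μS 0)
  rw [T.μS_zero, map_one]
  exact HahnSeries.C_injective (h1.trans (map_one _).symm)

end Setting

end FLTAgent.Entry.QOne
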