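import Fermat.Agent.Entry.QOne.Datum

/-!
# Roots of unity of order prime to `q` are small constants
-/

set_option autoImplicit false
set_option linter.unusedSectionVars false
set_option linter.style.haveILetI false

noncomputable section

open Function AlgebraicCurve IsLocalRing ModularCurve FLTAgent.Carayol

namespace FLTAgent.Entry.QOne

local notation "QA" => AlgebraicClosure ℚ

theorem rootC_pow (p : ℕ) [NeZero p] (a : ZMod p) : rootC p a ^ p = 1 := by
  rw [rootC, ← Units.val_pow_eq_pow_val, ← toMul_nsmul, ← map_nsmul,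
    show p • a = 0 by simp [nsmul_eq_mul], map_zero, toMul_zero, Units.val_one]

theorem rootC_add (p : ℕ) [NeZero p] (a b : ZMod p) : rootC p (a + b) = rootC p a * rootC p b := by
  simp [rootC, toMul_add]

theorem rootC_zero (p : ℕ) [NeZero p] : rootC p 0 = 1 := by simp [rootC]

theorem rootC_ne_zero (p : ℕ) [NeZero p] (a : ZMod p) : rootC p a ≠ 0 := Units.ne_zero _

theorem rootC_injective (p : ℕ) [NeZero p] : Injective (rootC p) := fun _ _ h =>
  TorsionHom.rootHom_injective p (Additive.toMul.injective (Units.ext h))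

variable {A : ValuationSubring QA} {q M0 N' M' : ℕ} [Fact q.Prime] [NeZero q] [NeZero M0]
  [NeZero N'] [NeZero M']

/-- The `n`th roots of unity lie in the small ring. -/
theorem exists_mem_W (m : Model A q M0 N' M') (hA : A.LiesOverPrime q) {n : ℕ} (hn : ¬ q ∣ n)
    {z : ℂ} (hz : z ^ n = 1) : ∃ w : m.C.W, (w : ℂ) = z := by
  haveI := m.dvr
  have hn0 : n ≠ 0 := fun h => hn (h ▸ dvd_zero q)
  haveI : NeZero n := ⟨hn0⟩
  obtain ⟨c, hc, hcz⟩ : ∃ c : QA, c ^ n = 1 ∧ m.P.κ c = z := by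
    obtain ⟨z0, hz0⟩ := HasEnoughRootsOfUnity.exists_primitiveRoot QA n
    obtain ⟨i, -, hi⟩ := (hz0.map_of_injective (f := m.P.κ) (m.P.κ).injective).eq_pow_of_pow_eq_one hz
    exact ⟨z0 ^ i, by rw [← pow_mul, mul_comm, pow_mul, hz0.pow_eq_one, one_pow], by rw [map_pow, hi]⟩
  obtain ⟨w, w', hw', hww⟩ := m.small.frac c (mem_K0_of_pow_eq_one hA hn hc)
  rw [hcz] at hww
  set v : m.C.S := m.C.inc w'
  have hv : v ≠ 0 := (map_ne_zero_iff _ (Subring.inclusion_injective m.C.hWS)).2 hw'
  set F := FractionRing m.C.S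
  set x : F := algebraMap m.C.S F (m.C.inc w) / algebraMap m.C.S F v
  have hvF : algebraMap m.C.S F v ≠ 0 :=
    (map_ne_zero_iff _ (IsFractionRing.injective m.C.S F)).2 hv
  have hxn : x ^ n = 1 := by
    have h : (m.C.inc w) ^ n = v ^ n := Subtype.ext (by
      show (w : ℂ) ^ n = (w' : ℂ) ^ n
      rw [← hww, mul_pow, hz, one_mul])
    rw [div_pow, div_eq_one_iff_eq (pow_ne_zero _ hvF), ← map_pow, h, map_pow]
  obtain ⟨s, hs⟩ := IsIntegrallyClosed.exists_algebraMap_eq_of_isIntegral_pow (R := m.C.S) (K := F)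
    (x := x) (Nat.pos_of_ne_zero hn0) (by rw [hxn]; exact isIntegral_one)
  have h1 : s * v = m.C.inc w := IsFractionRing.injective m.C.S F (by
    rw [map_mul, hs, div_mul_cancel₀ _ hvF])
  have hsz : (s : ℂ) = z := by
    refine mul_right_cancel₀ (b := (w' : ℂ)) (fun h => hw' (Subtype.ext h)) ?_
    rw [hww]
    exact congrArg Subtype.val h1
  obtain ⟨u, hu⟩ := m.small.fixed s fun σ hσ => by
    refine mul_right_cancel₀ hv ?_
    conv_rhs => rw [h1, ← hσ w, ← h1, map_mul, hσ w']
  exact ⟨u, by rw [← hsz, ← hu]; rfl⟩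

end FLTAgent.Entry.QOne
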