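import Fermat.Agent.Entry.QOne.Twist.Products

/-!
# Roots and kinds of the translates of the pairs, and the pairs of one label
-/

set_option autoImplicit false
set_option linter.unusedSectionVars false
set_option linter.style.haveILetI false
set_option synthInstance.maxHeartbeats 400000

noncomputable section

open UpperHalfPlane hiding I I_re I_im
open Function FLTAgent.ModEq FLTAgent.GoodModel ModularCurve FLTAgent.Carayol
open scoped MatrixGroups Classical

namespace FLTAgent.Entry.QOne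

variable {q M0 N' : ℕ} [NeZero M0] [NeZero N'] [NeZero q] [Fact q.Prime]

section Roots

variable (C : Ctx q M0 N')

theorem compg_sX_none {γ : SL(2, ℤ)} (hγ : γ ∈ CongruenceSubgroup.Gamma M0)
    (hc : ((γ 1 0 : ℤ) : ZMod q) = 0) : compg γ C.sX = C.rX none := by
  rw [(C.side_fix hγ ((ZMod.intCast_zmod_eq_zero_iff_dvd _ _).1 hc)).1]
  simp [Ctx.rX, Ctx.gr, compg_one]

theorem compg_rX0_none {γ : SL(2, ℤ)} (hγ : γ ∈ CongruenceSubgroup.Gamma M0)
    (ha : ((γ 0 0 : ℤ) : ZMod q) = 0) : compg γ (C.rX (some 0)) = C.rX none := by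
  obtain ⟨hm, hM0, -⟩ := C.ne_zero_mod
  have hd0 : ((C.gr (some 0) 1 1 : ℤ) : ZMod q) = 0 := by
    simp only [Ctx.gr, gq, Matrix.SpecialLinearGroup.coe_mk, Matrix.of_apply, Matrix.cons_val',
      Matrix.cons_val_one, Matrix.cons_val_fin_one, Ctx.idxK]
    generalize M0 * N' = m at hm ⊢
    push_cast
    rw [ZMod.natCast_zmod_val]
    field_simp
    ring
  rw [Ctx.rX, compg_compg]
  refine compg_sX_none C (mul_mem (C.gr_mem0 _) hγ) ?_
  simp [Matrix.SpecialLinearGroup.coe_mul, Matrix.mul_apply, Fin.sum_univ_two, hd0, ha]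

/-- The root attached to a residue by a translate. -/
def rootOf (M0 : ℕ) (δ : SL(2, ℤ)) (y : ZMod q) : Option (ZMod q) :=
  if ((δ 0 0 : ℤ) : ZMod q) + y * ((δ 1 0 : ℤ) : ZMod q) = 0 then none
  else some ((((δ 0 1 : ℤ) : ZMod q) + y * ((δ 1 1 : ℤ) : ZMod q)) /
    (((δ 0 0 : ℤ) : ZMod q) + y * ((δ 1 0 : ℤ) : ZMod q)) / ((M0 : ℕ) : ZMod q))

/-- The roots of a translate of a pair. -/
theorem roots_mul {δ : SL(2, ℤ)} (hδ : δ ∈ CongruenceSubgroup.Gamma M0) (y : Pair q) :
    compg (repG q (M0 * N') y * δ) C.sX = C.rX (rootOf M0 δ y.1.2) ∧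
      compg (repG q (M0 * N') y * δ) (C.rX (some 0)) = C.rX (rootOf M0 δ y.1.1) := by
  obtain ⟨h00, h01, h10, h11⟩ := repG_cast C y
  have hy : (y.1.2 - y.1.1)⁻¹ ≠ 0 := inv_ne_zero (sub_ne_zero.2 (Ne.symm y.2))
  set γ := repG q (M0 * N') y * δ
  have hmem : γ ∈ CongruenceSubgroup.Gamma M0 := mul_mem (repG_mem y) hδ
  have e0 : ∀ j, ((γ 0 j : ℤ) : ZMod q) =
      ((δ 0 j : ℤ) : ZMod q) + y.1.1 * ((δ 1 j : ℤ) : ZMod q) := fun j => by
    simp [γ, Matrix.SpecialLinearGroup.coe_mul, Matrix.mul_apply, Fin.sum_univ_two, h00, h01]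
  have e1 : ∀ j, ((γ 1 j : ℤ) : ZMod q) = (y.1.2 - y.1.1)⁻¹ *
      (((δ 0 j : ℤ) : ZMod q) + y.1.2 * ((δ 1 j : ℤ) : ZMod q)) := fun j => by
    simp [γ, Matrix.SpecialLinearGroup.coe_mul, Matrix.mul_apply, Fin.sum_univ_two, h10, h11]
    ring
  constructor
  · by_cases h : ((δ 0 0 : ℤ) : ZMod q) + y.1.2 * ((δ 1 0 : ℤ) : ZMod q) = 0
    · rw [rootOf, if_pos h, compg_sX_none C hmem (by rw [e1, h, mul_zero])]
    · rw [rootOf, if_neg h, compg_sX_of_ne C hmem (by rw [e1]; exact mul_ne_zero hy h), e1, e1,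
        mul_div_mul_left _ _ hy]
  · by_cases h : ((δ 0 0 : ℤ) : ZMod q) + y.1.1 * ((δ 1 0 : ℤ) : ZMod q) = 0
    · rw [rootOf, if_pos h, compg_rX0_none C hmem (by rw [e0, h])]
    · rw [rootOf, if_neg h, compg_rX0_of_ne C hmem (by rw [e0]; exact h), e0, e0]

theorem eta_mul {δ : SL(2, ℤ)} (y : Pair q) :
    compg (repG q (M0 * N') y * δ) C.eta = compg δ C.eta := by
  rw [← compg_compg, eta_repG]

/-- A representative with both roots rational is diagonal modulo `q`. -/
theorem entries_kind0 (g : C.Sheet) :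
    ((C.rep (C.lg g 0) 1 0 : ℤ) : ZMod q) = 0 ∧ ((C.rep (C.lg g 0) 0 1 : ℤ) : ZMod q) = 0 ∧
      ((C.rep (C.lg g 0) 0 0 : ℤ) : ZMod q) ≠ 0 := by
  set l := C.lg g 0
  set δ := C.rep l
  have hδ : δ ∈ CongruenceSubgroup.Gamma M0 := C.rep_mem l
  have a := C.rt_spec l false
  have b := C.rt_spec l true
  rw [(C.lg_data g 0).2] at a b
  simp only [Ctx.kroot, Ctx.sb, Ctx.rX, Ctx.gr, compg_one] at a b
  have hc : ((δ 1 0 : ℤ) : ZMod q) = 0 :=
    (ZMod.intCast_zmod_eq_zero_iff_dvd _ _).2 (C.dvd_of_fix_sX hδ a)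
  refine ⟨hc, (ZMod.intCast_zmod_eq_zero_iff_dvd _ _).2 ((C.fix_rX0_iff hδ).1 b), fun h => ?_⟩
  have hdet := δ.2
  rw [Matrix.det_fin_two] at hdet
  have hdet' := congrArg (fun z : ℤ => (z : ZMod q)) hdet
  simp [hc, h] at hdet' 

/-- A representative with two other roots has nonzero first column modulo `q`. -/
theorem entries_kind1 (g : C.Sheet) :
    ((C.rep (C.lg g 1) 1 0 : ℤ) : ZMod q) ≠ 0 ∧ ((C.rep (C.lg g 1) 0 0 : ℤ) : ZMod q) ≠ 0 := by
  set l := C.lg g 1
  set δ := C.rep l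
  have hδ : δ ∈ CongruenceSubgroup.Gamma M0 := C.rep_mem l
  have a := C.rt_spec l false
  have b := C.rt_spec l true
  rw [(C.lg_data g 1).2] at a b
  refine ⟨fun h => ?_, fun h => ?_⟩
  · have e : compg δ C.sX = C.rX (some 0) := by
      simpa [Ctx.sb, Ctx.rX, Ctx.gr, compg_one, Ctx.kroot, l, δ] using a
    exact Option.some_ne_none _ (C.rX_injective (e.symm.trans (compg_sX_none C hδ h)))
  · exact Option.some_ne_none _ (C.rX_injective (b.symm.trans (compg_rX0_none C hδ h)))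

variable {k : Type} [Field k] (Ω : Res C k)

/-- The reduction of a translate by its roots. -/
theorem red_of_roots {γ : SL(2, ℤ)} (hγ : γ ∈ CongruenceSubgroup.Gamma M0) {g : C.Sheet}
    (he : compg γ C.eta = g.1) {r s : Option (ZMod q)} (hr : compg γ C.sX = C.rX r)
    (hs : compg γ (C.rX (some 0)) = C.rX s) : Ω.red γ = Ω.rs g (C.kindOf r s) := by
  obtain ⟨h1, h2⟩ := C.idx_data hγ
  have e1 : Ω.red γ = Ω.red (C.rep (C.idx hγ)) := RingHom.ext fun a =>
    congrArg Ω.rd (C.embAt_congr a (C.compg_rep_idx hγ a).symm)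
  rw [e1, Ω.red_rep, Ctx.kind, h2 false r (by simpa [Ctx.sb, Ctx.rX, Ctx.gr, compg_one] using hr),
    h2 true s hs, show C.sheet (C.idx hγ) = g from Subtype.ext (h1.trans he)]

end Roots

section Count

variable {p : ℕ} [Fact p.Prime]

/-- The units of one label. -/
def unitsOf (c : Cls q p) : Finset (ZMod q)ˣ :=
  Finset.univ.filter fun u : (ZMod q)ˣ => (QuotientGroup.mk u : Cls q p) = c

theorem card_unitsOf (c : Cls q p) : (unitsOf c).card = (unitsOf (1 : Cls q p)).card := by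
  obtain ⟨v, rfl⟩ := QuotientGroup.mk_surjective c
  refine (Finset.card_bij' (fun u _ => v * u) (fun u _ => v⁻¹ * u) ?_ ?_ ?_ ?_).symm
  · intro u hu
    simp only [unitsOf, Finset.mem_filter, Finset.mem_univ, true_and] at hu ⊢
    rw [QuotientGroup.mk_mul, hu, mul_one]
  · intro u hu
    simp only [unitsOf, Finset.mem_filter, Finset.mem_univ, true_and] at hu ⊢
    rw [QuotientGroup.mk_mul, QuotientGroup.mk_inv, hu, inv_mul_cancel]
  · intro u _; simp
  · intro u _; simp

theorem card_labels {e m' : ℕ} (hqm : q - 1 = p ^ e * m') (hm : ¬ p ∣ m') :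
    Fintype.card (Cls q p) = p ^ e ∧ ∀ c : Cls q p, (unitsOf c).card = m' := by
  have hp : p.Prime := Fact.out
  have hq : q.Prime := Fact.out
  have hcard : Nat.card (ZMod q)ˣ = q - 1 := by
    rw [Nat.card_eq_fintype_card, ZMod.card_units]
  have hpos : 0 < p ^ e := pow_pos hp.pos e
  have he : e ≤ q := by
    have h1 : p ^ e ≤ q - 1 := Nat.le_of_dvd (by have := hq.two_le; omega) ⟨m', hqm⟩
    have h2 : e < p ^ e := Nat.lt_pow_self hp.one_lt
    omega
  have hg : (q - 1).gcd (p ^ q) = p ^ e := by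
    obtain ⟨r, rfl⟩ := Nat.exists_eq_add_of_le he
    rw [hqm, pow_add, Nat.gcd_mul_left,
      Nat.Coprime.gcd_eq_one ((hp.coprime_iff_not_dvd.2 hm).symm.pow_right r), mul_one]
  constructor
  · rw [← Nat.card_eq_fintype_card, ← hg, ← hcard]
    exact IsCyclic.index_powMonoidHom_range (ZMod q)ˣ (p ^ q)
  · intro c
    rw [card_unitsOf, ← Nat.mul_div_cancel_left m' hpos, ← hqm, ← hg, ← hcard,
      ← IsCyclic.card_powMonoidHom_range (ZMod q)ˣ (p ^ q)]
    rw [Nat.card_eq_fintype_card, Fintype.card_subtype]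
    refine congrArg Finset.card (Finset.filter_congr fun u _ => ?_)
    exact QuotientGroup.eq_one_iff u

/-- A product over the pairs of one label. -/
theorem prod_lab {β : Type*} [CommMonoid β] (c : Cls q p) (G : ZMod q → ZMod q → β) :
    ∏ y ∈ Finset.univ.filter (fun y : Pair q => lab (p := p) y = c), G y.1.1 y.1.2 =
      ∏ i : ZMod q, ∏ u ∈ unitsOf c, G i (i + (u : ZMod q)) := by
  rw [← Finset.prod_product' Finset.univ (unitsOf c) fun i u => G i (i + (u : ZMod q))]
  refine Finset.prod_bij'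
    (fun y _ => (y.1.1, Units.mk0 (y.1.2 - y.1.1) (sub_ne_zero.2 (Ne.symm y.2))))
    (fun x _ => ⟨(x.1, x.1 + (x.2 : ZMod q)), fun h => x.2.ne_zero (left_eq_add.1 h)⟩)
    ?_ ?_ ?_ ?_ ?_
  · intro y hy
    exact Finset.mem_product.2
      ⟨Finset.mem_univ _, Finset.mem_filter.2 ⟨Finset.mem_univ _, (Finset.mem_filter.1 hy).2⟩⟩
  · intro x hx
    refine Finset.mem_filter.2 ⟨Finset.mem_univ _, ?_⟩
    rw [lab, ← (Finset.mem_filter.1 (Finset.mem_product.1 hx).2).2]
    exact congrArg QuotientGroup.mk (Units.ext (by simp))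
  · intro y _
    exact Subtype.ext (Prod.ext rfl (add_sub_cancel _ _))
  · intro x _
    exact Prod.ext rfl (Units.ext (add_sub_cancel_left _ _))
  · intro y _
    simp

/-- The product over one label of a function of the places of one residue. -/
theorem prod_kinds {β : Type*} [CommMonoid β] (y0 : ZMod q) (c : Cls q p) (a b d : β) :
    ∏ i : ZMod q, ∏ u ∈ unitsOf c,
        (if i + (u : ZMod q) = y0 then a else if i = y0 then b else d) =
      a ^ (unitsOf c).card * b ^ (unitsOf c).card * d ^ ((q - 2) * (unitsOf c).card) := by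
  rw [Finset.prod_comm]
  have key : ∀ u : (ZMod q)ˣ,
      (∏ i : ZMod q, if i + (u : ZMod q) = y0 then a else if i = y0 then b else d) =
        a * b * d ^ (q - 2) := by
    intro u
    have hne : y0 - (u : ZMod q) ≠ y0 := fun h => u.ne_zero (by simpa using h)
    rw [← Finset.mul_prod_erase _ _ (Finset.mem_univ (y0 - (u : ZMod q))),
      ← Finset.mul_prod_erase _ _ (Finset.mem_erase.2 ⟨hne.symm, Finset.mem_univ y0⟩),
      if_pos (sub_add_cancel _ _), if_neg (by simp [u.ne_zero]), if_pos rfl, mul_assoc]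
    congr 2
    rw [Finset.prod_congr rfl (g := fun _ => d) fun i hi => ?_, Finset.prod_const,
      Finset.card_erase_of_mem (Finset.mem_erase.2 ⟨hne.symm, Finset.mem_univ y0⟩),
      Finset.card_erase_of_mem (Finset.mem_univ _), Finset.card_univ, ZMod.card]
    · congr 1
    · obtain ⟨h1, h2, -⟩ := by simpa only [Finset.mem_erase] using hi
      rw [if_neg fun h => h2 (eq_sub_of_add_eq h), if_neg h1]
  rw [Finset.prod_congr rfl fun u _ => key u, Finset.prod_const, mul_pow, mul_pow, ← pow_mul]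

end Count

end FLTAgent.Entry.QOne
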