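import Fermat.Agent.Entry.QOne.Twist.Const
import Fermat.Agent.Entry.QOne.Twist.Counts
import Fermat.Agent.Entry.QOne.Orders

/-!
# Without twist, roots along two kinds of branches

If no automorphism of the constants twists the products, their sum over the labels is rational on
the cover and integral over the line. On a branch with both roots rational the automorphisms
permute the translated products, so these have one reduction; on a middle branch they have equal
`p`th powers.
-/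

set_option autoImplicit false
set_option linter.unusedSectionVars false
set_option linter.style.haveILetI false
set_option synthInstance.maxHeartbeats 400000

noncomputable section

open UpperHalfPlane hiding I I_re I_im
open Function FLTAgent.ModEq FLTAgent.GoodModel ModularCurve FLTAgent.Carayol Polynomial
open scoped MatrixGroups Classical

namespace FLTAgent.Entry.QOne

variable {q M0 N' : ℕ} [NeZero M0] [NeZero N'] [NeZero q] [Fact q.Prime]

theorem exists_moveOf (C : Ctx q M0 N') (σ : C.S ≃+* C.S) (hσ : ∀ w, σ (C.inc w) = C.inc w) :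
    ∃ s : Move C, s.σ = σ := by
  have hz := C.zq_primitive
  obtain ⟨j, -, hj⟩ := hz.eq_pow_of_pow_eq_one
    (show (σ (C.zq : C.S)) ^ q = 1 by rw [← map_pow, hz.pow_eq_one, map_one])
  have hj0 : ((j : ℕ) : ZMod q) ≠ 0 := fun h => by
    rw [ZMod.natCast_eq_zero_iff] at h
    have h2 : σ (C.zq : C.S) = 1 := by rw [← hj]; exact (hz.pow_eq_one_iff_dvd j).2 h
    exact hz.ne_one C.hq.one_lt (σ.injective (h2.trans (map_one σ).symm))
  exact ⟨⟨σ, hσ, Units.mk0 _ hj0, by
    rw [Units.val_mk0, ZMod.val_natCast, ← pow_eq_pow_mod _ hz.pow_eq_one, hj]⟩, rfl⟩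

section Integral

variable {C : Ctx q M0 N'}

theorem intU_of_pow {X : LaurentSeries C.S} {n : ℕ} (hn : 0 < n) (h : C.IntU (X ^ n)) :
    C.IntU X := by
  letI := ((C.embAt 1).comp C.U.subtype).toAlgebra
  exact IsIntegral.of_pow hn h

theorem intU_sum {ι : Type*} (s : Finset ι) (F : ι → LaurentSeries C.S)
    (h : ∀ i ∈ s, C.IntU (F i)) : C.IntU (∑ i ∈ s, F i) := by
  letI := ((C.embAt 1).comp C.U.subtype).toAlgebra
  exact IsIntegral.sum F h

variable {k : Type} [Field k] {Ω : Res C k} [IsDiscreteValuationRing C.S] [IsAlgClosed k]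
  [IsNoetherianRing C.W]

omit [IsDiscreteValuationRing C.S] [IsAlgClosed k] [IsNoetherianRing C.W] in
/-- An integral quotient lies in every normal ring over the cover. -/
theorem exists_of_int {L : Type*} [CommRing L] [IsDomain L] [IsIntegrallyClosed L] (φ : C.R →+* L)
    (hφ : Injective φ) {a d : C.R} (hd : d ≠ 0) {X : LaurentSeries C.S}
    (hX : C.IntU X) (h : C.embAt 1 d * X = C.embAt 1 a) : ∃ z : L, φ d * z = φ a := by
  obtain ⟨P, hP, hP0⟩ := hX
  have heq : (Polynomial.scaleRoots (P.map C.U.subtype) d).eval a = 0 := by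
    refine C.embAt_injective 1 ?_
    rw [map_zero, ← Polynomial.eval₂_at_apply, ← h]
    exact Polynomial.scaleRoots_eval₂_eq_zero (C.embAt 1)
      (by rw [Polynomial.eval₂_map]; exact hP0)
  set K := FractionRing L
  set ψ : C.R →+* K := (algebraMap L K).comp φ with hψ
  have hd' : ψ d ≠ 0 := fun h0 => hd (hφ (IsFractionRing.injective L K
    (h0.trans ((map_zero ψ).symm.trans rfl))))
  have hint : IsIntegral L (ψ a / ψ d) := by
    refine ⟨(P.map C.U.subtype).map φ, (hP.map _).map _, ?_⟩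
    rw [Polynomial.eval₂_map, ← hψ]
    have h2 := congrArg ψ heq
    rw [map_zero, ← Polynomial.eval₂_at_apply,
      show ψ a = ψ d * (ψ a / ψ d) from (mul_div_cancel₀ _ hd').symm,
      Polynomial.scaleRoots_eval₂_mul] at h2
    exact (mul_eq_zero.1 h2).resolve_left (pow_ne_zero _ hd')
  obtain ⟨z, hz⟩ := IsIntegrallyClosed.isIntegral_iff.1 hint
  refine ⟨z, IsFractionRing.injective L K ?_⟩
  rw [map_mul, hz]
  exact mul_div_cancel₀ _ hd'

/-- An integral quotient is regular at every point. -/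
theorem exists_num_den (_ρ : Ram Ω) (pt : Pt Ω) {a d : C.R} (hd : d ≠ 0) {X : LaurentSeries C.S}
    (hX : C.IntU X) (h : C.embAt 1 d * X = C.embAt 1 a) :
    ∃ num den : C.R, pt.π den ≠ 0 ∧ den * a = num * d := by
  haveI := pt.isNoetherian_loc
  haveI := pt.ufd_loc
  haveI := pt.isIntegrallyClosed_loc
  set φ := algebraMap C.R pt.Loc
  have hφ : Injective φ :=
    IsLocalization.injective pt.Loc (Ideal.primeCompl_le_nonZeroDivisors pt.ideal)
  obtain ⟨z, hdz⟩ := exists_of_int φ hφ hd hX h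
  obtain ⟨⟨num, den⟩, hnd⟩ := IsLocalization.surj pt.ideal.primeCompl z
  change z * φ den.1 = φ num at hnd
  refine ⟨num, den.1, fun h0 => den.2 (pt.mem_ideal.2 h0), hφ ?_⟩
  rw [map_mul, map_mul, ← hnd, ← hdz]
  ring

end Integral

namespace Setting

variable {C : Ctx q M0 N'} {p : ℕ} [Fact p.Prime] (T : Setting C p)

theorem trComp_trComp (γ δ : SL(2, ℤ)) (x : trRing C.S (M0 * (N' * q))) :
    trComp δ (trComp γ x) = trComp (γ * δ) x :=
  Subtype.ext (funext fun τ => congrArg (x : ℍ → ℂ) (mul_smul γ δ τ).symm)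

theorem ser_trComp_pow (δ : SL(2, ℤ)) (c : Cls q p) : ser (trComp δ (T.R c)) ^ p =
    ∏ y ∈ T.fibL c, C.embAt (repG q (M0 * N') y * δ) T.D.F := by
  rw [← map_pow, ← map_pow, T.R_pow, map_prod, map_prod]
  refine Finset.prod_congr rfl fun y _ => ?_
  rw [C.embAt_apply, trComp_trComp]

theorem intU_ser_R (hF : C.FixedPart) (c : Cls q p) : C.IntU (ser (T.R c)) := by
  refine intU_of_pow (Fact.out : p.Prime).pos ?_
  rw [T.ser_R_pow]
  refine C.intU_prod _ _ fun y _ => ?_
  rw [← C.embAt_congr _ (C.compg_rep_idx (repG_mem y) T.D.F)]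
  exact C.intU_emb hF _ _

/-- A function of the products fixed by the stabiliser. -/
theorem trComp_poly {γ : SL(2, ℤ)} (hγ : γ ∈ KG q M0 (M0 * N')) :
    (∏ c, (X - Polynomial.C (T.R c))).map (trComp γ) = ∏ c, (X - Polynomial.C (T.R c)) := by
  rw [Polynomial.map_prod]
  refine Fintype.prod_equiv (Equiv.mulRight (chi p (toG0 (coprime_level C) hγ))) _ _ fun c => ?_
  rw [Polynomial.map_sub, Polynomial.map_X, Polynomial.map_C, T.trComp_R hγ, Equiv.coe_mulRight]

theorem trComp_sum {γ : SL(2, ℤ)} (hγ : γ ∈ KG q M0 (M0 * N')) :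
    trComp γ (∑ c, T.R c) = ∑ c, T.R c := by
  rw [map_sum]
  refine Fintype.sum_equiv (Equiv.mulRight (chi p (toG0 (coprime_level C) hγ))) _ _ fun c => ?_
  rw [T.trComp_R hγ, Equiv.coe_mulRight]

variable (htw : ∀ (t : Move C) (c : Cls q p), T.tw t c = 0)
include htw

theorem coeffMap_R (s : Move C) (c : Cls q p) : coeffMap s.σ.toRingHom (ser (T.R c)) =
    ser (T.R ((QuotientGroup.mk s.a : Cls q p) * c)) := by
  rw [T.tw_spec, htw, T.μS_zero, map_one, one_mul]

theorem frac_poly (hF : C.FixedPart) (i : ℕ) : ∃ a d : C.R, d ≠ 0 ∧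
    Subring.inclusion C.R_le d * (∏ c, (X - Polynomial.C (T.R c))).coeff i =
      Subring.inclusion C.R_le a := by
  refine C.exists_frac_of_ser hF _ (stab_of_fix C fun γ hγ => congrArg Subtype.val
    ((Polynomial.coeff_map (trComp γ) i).symm.trans
      (congrArg (fun P : Polynomial (trRing C.S (M0 * (N' * q))) => P.coeff i)
        (T.trComp_poly hγ)))) fun j => hF _ fun σ hσ => ?_
  obtain ⟨s, rfl⟩ := exists_moveOf C σ hσ
  have h : ((∏ c, (X - Polynomial.C (T.R c))).map ser).map (coeffMap s.σ.toRingHom) =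
      (∏ c, (X - Polynomial.C (T.R c))).map ser := by
    simp only [Polynomial.map_prod, Polynomial.map_sub, Polynomial.map_X, Polynomial.map_C]
    refine Fintype.prod_equiv (Equiv.mulLeft (QuotientGroup.mk s.a : Cls q p)) _ _ fun c => ?_
    rw [T.coeffMap_R htw, Equiv.coe_mulLeft]
  have h1 := congrArg (fun P : Polynomial (LaurentSeries C.S) => (P.coeff i).coeff j) h
  simp only [Polynomial.coeff_map, coeffMap_coeff] at h1
  exact h1

theorem frac_sum (hF : C.FixedPart) : ∃ a d : C.R, d ≠ 0 ∧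
    Subring.inclusion C.R_le d * (∑ c, T.R c) = Subring.inclusion C.R_le a := by
  refine C.exists_frac_of_ser hF _ (stab_of_fix C fun γ hγ => congrArg Subtype.val
    (T.trComp_sum hγ)) fun j => hF _ fun σ hσ => ?_
  obtain ⟨s, rfl⟩ := exists_moveOf C σ hσ
  have h : coeffMap s.σ.toRingHom (ser (∑ c, T.R c)) = ser (∑ c, T.R c) := by
    rw [map_sum, map_sum]
    refine Fintype.sum_equiv (Equiv.mulLeft (QuotientGroup.mk s.a : Cls q p)) _ _ fun c => ?_
    rw [T.coeffMap_R htw, Equiv.coe_mulLeft]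
  have h1 := congrArg (fun z : LaurentSeries C.S => z.coeff j) h
  simp only [coeffMap_coeff] at h1
  exact h1

variable {k : Type} [Field k] {Ω : Res C k} [IsDiscreteValuationRing C.S] [IsAlgClosed k]
  [IsNoetherianRing C.W] (ρ : Ram Ω) (hqp : q ≠ p) (hFs : ∀ g j, Ω.rs g j T.D.F ≠ 0)
  (hconst : ∀ c, Ω.rd (ser (T.R c)) = Ω.rd (ser (T.R 1)))
include ρ hqp hFs hconst

/-- On a branch with both roots rational the products have one reduction. -/
theorem rd_kind0 (g : C.Sheet) (c : Cls q p) :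
    Ω.rd (ser (trComp (C.rep (C.lg g 0)) (T.R c))) =
      Ω.rd (ser (trComp (C.rep (C.lg g 0)) (T.R 1))) := by
  obtain ⟨u, rfl⟩ := QuotientGroup.mk_surjective c
  obtain ⟨s, rfl⟩ := exists_move (C := C) ρ u
  set l := C.lg g 0
  set δ := C.rep l
  have hδ : δ ∈ CongruenceSubgroup.Gamma M0 := C.rep_mem l
  obtain ⟨h10, h01, h00⟩ := entries_kind0 C g
  haveI := C.isDomain_trRing
  have hroot : ∀ x : ZMod q, rootOf M0 δ ((s.a : ZMod q) * x) =
      (rootOf M0 δ x).map ((s.a : ZMod q) * ·) := fun x => by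
    have hne : ∀ z : ZMod q, ((δ 0 0 : ℤ) : ZMod q) + z * ((δ 1 0 : ℤ) : ZMod q) ≠ 0 := fun z => by
      rw [h10, mul_zero, add_zero]; exact h00
    rw [rootOf, rootOf, if_neg (hne _), if_neg (hne _), Option.map_some, h10, h01]
    exact congrArg some (by ring)
  set Y : Cls q p → LaurentSeries C.S := fun c => ser (trComp δ (T.R c)) with hY
  have hpow : coeffMap s.σ.toRingHom (Y 1) ^ p = Y ((QuotientGroup.mk s.a : Cls q p) * 1) ^ p := by
    rw [← map_pow, hY]
    simp only [T.ser_trComp_pow, map_prod]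
    refine Finset.prod_bij (fun y _ => s.act y) (fun y hy => ?_) (fun y _ y' _ h => ?_)
      (fun y hy => ?_) fun y _ => ?_
    · rw [T.mem_fibL] at hy ⊢
      rw [s.lab_act, hy]
    · exact Subtype.ext (Prod.ext (mul_left_cancel₀ s.a.ne_zero (congrArg (fun z : Pair q => z.1.1) h))
        (mul_left_cancel₀ s.a.ne_zero (congrArg (fun z : Pair q => z.1.2) h)))
    · refine ⟨⟨((s.a : ZMod q)⁻¹ * y.1.1, (s.a : ZMod q)⁻¹ * y.1.2), fun h => y.2
        (mul_left_cancel₀ (inv_ne_zero s.a.ne_zero) h)⟩, ?_, ?_⟩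
      · rw [T.mem_fibL] at hy ⊢
        refine mul_left_cancel (a := (QuotientGroup.mk s.a : Cls q p)) ?_
        rw [← s.lab_act, ← hy]
        exact congrArg lab (Subtype.ext (Prod.ext (mul_inv_cancel_left₀ s.a.ne_zero _)
          (mul_inv_cancel_left₀ s.a.ne_zero _)))
      · exact Subtype.ext (Prod.ext (mul_inv_cancel_left₀ s.a.ne_zero _)
          (mul_inv_cancel_left₀ s.a.ne_zero _))
    · obtain ⟨e1, e2⟩ := roots_mul C hδ y
      obtain ⟨e1', e2'⟩ := roots_mul C hδ (s.act y)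
      refine s.coeffMap_embAt (mul_mem (repG_mem y) hδ) (mul_mem (repG_mem _) hδ)
        (by rw [eta_mul, eta_mul]) e1 e2 ?_ ?_ _
      · rw [e1', ← hroot]; rfl
      · rw [e2', ← hroot]; rfl
  obtain ⟨d, hd⟩ := T.exists_mul_of_pow_eq hpow
  obtain ⟨c', hc'⟩ : ∃ c', coeffMap s.σ.toRingHom (Y 1) = Y c' := by
    set Q : Polynomial (LaurentSeries C.S) := ∏ c, (X - Polynomial.C (Y c)) with hQ
    have hmap : (∏ c, (X - Polynomial.C (T.R c))).map (ser.comp (trComp δ)) = Q := by
      simp only [hQ, hY, Polynomial.map_prod, Polynomial.map_sub, Polynomial.map_X,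
        Polynomial.map_C, RingHom.comp_apply]
    have hfix : Q.map (coeffMap s.σ.toRingHom) = Q := by
      rw [← hmap]
      refine Polynomial.ext fun i => ?_
      simp only [Polynomial.coeff_map, RingHom.comp_apply]
      obtain ⟨a, b, hb, hab⟩ := T.frac_poly htw Ω.fixed i
      have h1 := congrArg (fun z => ser (trComp δ z)) hab
      simp only [map_mul] at h1
      have hemb : ∀ x : C.R, coeffMap s.σ.toRingHom (C.emb l x) = C.emb l x := fun x => by
        ext j
        obtain ⟨w, hw⟩ := C.coeff_emb_of_rt Ω.fixed (l := l)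
          (fun b => by rw [(C.lg_data g 0).2]; cases b <;> simp [Ctx.kroot]) x j
        rw [coeffMap_coeff, ← hw]
        exact congrArg Subtype.val (s.hσ w)
      have hb' : C.emb l b ≠ 0 := Ram.emb_ne hb
      refine mul_left_cancel₀ hb' ?_
      change C.emb l b * _ = C.emb l b * _
      have h2 := congrArg (coeffMap s.σ.toRingHom) h1
      rw [map_mul] at h2
      change coeffMap s.σ.toRingHom (C.emb l b) * _ = coeffMap s.σ.toRingHom (C.emb l a) at h2
      rw [hemb, hemb] at h2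
      exact h2.trans h1.symm
    have h0 : Q.eval (coeffMap s.σ.toRingHom (Y 1)) = 0 := by
      rw [← hfix, Polynomial.eval_map, Polynomial.eval₂_at_apply]
      have h1 : Q.eval (Y 1) = 0 := by
        rw [hQ, Polynomial.eval_prod]
        exact Finset.prod_eq_zero (Finset.mem_univ 1) (by simp)
      rw [h1, map_zero]
    rw [hQ, Polynomial.eval_prod, Finset.prod_eq_zero_iff] at h0
    obtain ⟨c', -, hc'⟩ := h0
    exact ⟨c', sub_eq_zero.1 (by simpa using hc')⟩
  have hd0 : d = 0 := by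
    have h1 : trComp δ (T.R c') =
        trComp δ (T.μc d * T.R ((QuotientGroup.mk s.a : Cls q p) * 1)) := by
      refine ser_injective ?_
      rw [map_mul, T.trComp_μc, map_mul, T.ser_μc]
      exact hc'.symm.trans hd
    have h2 : T.R c' = T.μc d * T.R ((QuotientGroup.mk s.a : Cls q p) * 1) :=
      Subtype.ext (compg_injective δ (congrArg Subtype.val h1))
    have h3 := congrArg (fun z => Ω.rd (ser z)) h2
    simp only [map_mul, T.ser_μc, hconst] at h3
    rw [hconst] at h3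
    have h4 : Ω.rd (HahnSeries.C (T.μS d)) = 1 :=
      mul_right_cancel₀ (T.rd_ser_R_ne hFs 1) ((one_mul _).trans h3).symm
    rw [Res.rd, coeffMap_C] at h4
    refine T.φ_μS_injective (Ω := Ω) hqp ?_
    show Ω.φ (T.μS d) = Ω.φ (T.μS 0)
    rw [T.μS_zero, map_one]
    exact HahnSeries.C_injective (h4.trans (map_one _).symm)
  rw [hd0, T.μS_zero, map_one, one_mul, mul_one] at hd
  have h := congrArg Ω.rd hd
  rw [Res.rd, coeffMap_coeffMap] at h
  rw [Res.rd]
  refine h.symm.trans ?_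
  congr 1
  congr 1
  ext x : 1
  exact s.φ_σ ρ x

omit hconst htw hqp in
theorem rd_pow_kind0 (g : C.Sheet) {e m' : ℕ} (hqm : q - 1 = p ^ e * m') (hm : ¬ p ∣ m')
    (c : Cls q p) : Ω.rd (ser (trComp (C.rep (C.lg g 0)) (T.R c))) ^ p =
      Ω.rs g 1 T.D.F ^ (q * m') := by
  obtain ⟨h10, h01, h00⟩ := entries_kind0 C g
  have hδ := C.rep_mem (C.lg g 0)
  rw [← map_pow, T.ser_trComp_pow, map_prod]
  have hy : ∀ y ∈ T.fibL c, Ω.rd (C.embAt (repG q (M0 * N') y * C.rep (C.lg g 0)) T.D.F) =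
      Ω.rs g 1 T.D.F := fun y _ => by
    obtain ⟨e1, e2⟩ := roots_mul C hδ y
    show Ω.red _ _ = _
    rw [red_of_roots C Ω (mul_mem (repG_mem y) hδ) (g := g)
      (by rw [eta_mul]; exact congrArg Subtype.val (C.lg_data g 0).1) e1 e2,
      rootOf, rootOf, if_neg (by rw [h10, mul_zero, add_zero]; exact h00),
      if_neg (by rw [h10, mul_zero, add_zero]; exact h00)]
    rfl
  rw [Finset.prod_congr rfl hy, fibL, prod_lab c fun _ _ => Ω.rs g 1 T.D.F]
  simp only [Finset.prod_const, Finset.card_univ, ZMod.card, (card_labels hqm hm).2, ← pow_mul]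
  rw [mul_comm m' q]

omit hconst htw hqp in
theorem rd_pow_kind1 (g : C.Sheet) {e m' : ℕ} (hqm : q - 1 = p ^ e * m') (hm : ¬ p ∣ m')
    (c : Cls q p) : Ω.rd (ser (trComp (C.rep (C.lg g 1)) (T.R c))) ^ p =
      Ω.rs g 0 T.D.F ^ m' * Ω.rs g 2 T.D.F ^ m' * Ω.rs g 1 T.D.F ^ ((q - 2) * m') := by
  obtain ⟨h10, h00⟩ := entries_kind1 C g
  have hδ := C.rep_mem (C.lg g 1)
  set δ := C.rep (C.lg g 1)
  set y0 : ZMod q := -((δ 0 0 : ℤ) : ZMod q) / ((δ 1 0 : ℤ) : ZMod q)
  have hiff : ∀ x : ZMod q, ((δ 0 0 : ℤ) : ZMod q) + x * ((δ 1 0 : ℤ) : ZMod q) = 0 ↔ x = y0 :=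
    fun x => by
      rw [eq_div_iff h10]
      exact ⟨fun h => by linear_combination h, fun h => by linear_combination h⟩
  rw [← map_pow, T.ser_trComp_pow, map_prod]
  have hy : ∀ y ∈ T.fibL c, Ω.rd (C.embAt (repG q (M0 * N') y * δ) T.D.F) =
      if y.1.2 = y0 then Ω.rs g 0 T.D.F
      else if y.1.1 = y0 then Ω.rs g 2 T.D.F else Ω.rs g 1 T.D.F := fun y _ => by
    obtain ⟨e1, e2⟩ := roots_mul C hδ y
    show Ω.red _ _ = _
    rw [red_of_roots C Ω (mul_mem (repG_mem y) hδ) (g := g)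
      (by rw [eta_mul]; exact congrArg Subtype.val (C.lg_data g 1).1) e1 e2]
    by_cases h2 : y.1.2 = y0
    · rw [if_pos h2, rootOf, if_pos ((hiff _).2 h2)]; rfl
    · rw [if_neg h2, rootOf, if_neg fun h => h2 ((hiff _).1 h)]
      by_cases h1 : y.1.1 = y0
      · rw [if_pos h1, rootOf, if_pos ((hiff _).2 h1)]; rfl
      · rw [if_neg h1, rootOf, if_neg fun h => h1 ((hiff _).1 h)]; rfl
  rw [Finset.prod_congr rfl hy, fibL,
    prod_lab c fun i j => if j = y0 then Ω.rs g 0 T.D.F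
      else if i = y0 then Ω.rs g 2 T.D.F else Ω.rs g 1 T.D.F,
    prod_kinds, (card_labels hqm hm).2]

set_option maxHeartbeats 800000 in
/-- Without twist the sum of the products gives roots along two kinds of branches. -/
theorem exists_middle : Nonempty (T.D.Middle Ω) := by
  have hp : p.Prime := Fact.out
  haveI := Ω.charK
  haveI := C.isDomain_trRing
  obtain ⟨e, m', hm, hqm⟩ := Nat.exists_eq_pow_mul_and_not_dvd
    (show q - 1 ≠ 0 by have := C.hq.two_le; omega) p hp.ne_one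
  set m := Fintype.card (Cls q p) with hmdef
  have hmq : ¬ q ∣ m := by
    rw [hmdef, (card_labels hqm hm).1]
    exact fun h => hqp ((Nat.prime_dvd_prime_iff_eq C.hq hp).1 (C.hq.dvd_of_dvd_pow h))
  have hmk : (m : k) ≠ 0 := fun h => hmq ((CharP.cast_eq_zero_iff k q m).1 h)
  obtain ⟨a1, d1, hd1, had1⟩ := T.frac_sum htw Ω.fixed
  have hint : C.IntU (ser (∑ c, T.R c)) := by
    rw [map_sum]
    exact intU_sum _ _ fun c _ => T.intU_ser_R Ω.fixed c
  have hser : ∀ {a d : C.R}, Subring.inclusion C.R_le d * (∑ c, T.R c) =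
      Subring.inclusion C.R_le a → C.embAt 1 d * ser (∑ c, T.R c) = C.embAt 1 a := fun h => by
    rw [← C.ser_incl, ← C.ser_incl, ← map_mul, h]
  -- one denominator
  let I : Ideal C.R := {
    carrier := {x | ∃ num, x * a1 = num * d1}
    add_mem' := fun {x y} ⟨u, hu⟩ ⟨v, hv⟩ => ⟨u + v, by rw [add_mul, hu, hv, add_mul]⟩
    zero_mem' := ⟨0, by simp⟩
    smul_mem' := fun r x ⟨u, hu⟩ => ⟨r * u, by rw [smul_eq_mul, mul_assoc, hu, mul_assoc]⟩ }
  obtain ⟨d0, ⟨num0, hnum0⟩, hd0⟩ : ∃ d0 ∈ I, ∀ g j, Ω.rs g j d0 ≠ 0 := by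
    haveI : Fintype C.Sheet := Finset.Subtype.fintype C.nodes
    haveI : Nonempty C.Sheet := ⟨⟨C.eta, C.eta_mem_nodes⟩⟩
    by_contra hcon
    push Not at hcon
    have hsub : (I : Set C.R) ⊆ ⋃ i ∈ (↑(Finset.univ : Finset (C.Sheet × Fin 3)) : Set _),
        ((fun i : C.Sheet × Fin 3 => RingHom.ker (Ω.rs i.1 i.2)) i : Set C.R) := fun x hx => by
      obtain ⟨g, j, h⟩ := hcon x hx
      exact Set.mem_biUnion (x := (g, j)) (by simp) h
    obtain ⟨i, -, hi⟩ := (Ideal.subset_union_prime (Classical.arbitrary _) (Classical.arbitrary _)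
      fun i _ _ _ => RingHom.ker_isPrime (Ω.rs i.1 i.2)).1 hsub
    obtain ⟨M, hM, hle⟩ := Ideal.exists_le_maximal _ (RingHom.ker_ne_top (Ω.rs i.1 i.2))
    haveI := hM
    obtain ⟨pt, rfl⟩ := Ω.exists_pt M (hle (Ω.red_natCast (C.gm i.1 i.2)))
    obtain ⟨num, den, hden, heq⟩ := exists_num_den ρ pt hd1 hint (hser had1)
    exact hden (pt.mem_ideal.1 (hle (hi ⟨num, heq⟩)))
  have hd00 : d0 ≠ 0 := fun h => hd0 ⟨C.eta, C.eta_mem_nodes⟩ 0 (by rw [h, map_zero])
  have had0 : Subring.inclusion C.R_le d0 * (∑ c, T.R c) = Subring.inclusion C.R_le num0 := by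
    refine mul_left_cancel₀ (fun h => hd1 (Subring.inclusion_injective C.R_le
      (h.trans (map_zero _).symm))) ?_
    refine (mul_left_comm _ _ _).trans ((congrArg (_ * ·) had1).trans ?_)
    rw [← map_mul (Subring.inclusion C.R_le), ← map_mul (Subring.inclusion C.R_le), hnum0,
      mul_comm num0]
  have hbr : ∀ g j, Ω.rs g j d0 * ∑ c, Ω.rd (ser (trComp (C.rep (C.lg g j)) (T.R c))) =
      Ω.rs g j num0 := fun g j => by
    have h := congrArg (fun z => Ω.rd (ser (trComp (C.rep (C.lg g j)) z))) had0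
    simp only [map_mul, map_sum] at h
    rw [← Ω.rs_lg, ← Ω.rs_lg]
    exact h
  have hrsd : ∀ g j, Ω.rs g j ((m : C.R) * d0) = HahnSeries.C (m : k) * Ω.rs g j d0 := fun g j => by
    rw [map_mul, map_natCast, map_natCast HahnSeries.C]
  refine ⟨⟨e, m', hqm, hm, num0, (m : C.R) * d0, fun g j => ?_, fun pt => ?_, fun g => ?_,
    fun g => ?_⟩⟩
  · rw [hrsd]
    exact mul_ne_zero (fun h => hmk (HahnSeries.C_injective (h.trans (map_zero _).symm))) (hd0 g j)
  · obtain ⟨num, den, hden, heq⟩ := exists_num_den ρ pt hd00 hint (hser had0)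
    refine ⟨num, den * (m : C.R), ?_, ?_⟩
    · rw [map_mul, map_natCast]; exact mul_ne_zero hden hmk
    · linear_combination (m : C.R) * heq
  · have h := hbr g 0
    rw [Finset.sum_congr rfl fun c _ => T.rd_kind0 htw ρ hqp hFs hconst g c, Finset.sum_const,
      Finset.card_univ, nsmul_eq_mul, ← hmdef] at h
    rw [hrsd, ← h, mul_pow, mul_pow, mul_pow, T.rd_pow_kind0 ρ hFs g hqm hm,
      map_natCast HahnSeries.C]
    ring
  · have hne : ∀ c, Ω.rd (ser (trComp (C.rep (C.lg g 1)) (T.R c))) ≠ 0 := fun c h => by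
      have h1 := T.rd_pow_kind1 ρ hFs g hqm hm c
      rw [h, zero_pow hp.ne_zero, eq_comm, mul_eq_zero, mul_eq_zero] at h1
      rcases h1 with (h1 | h1) | h1 <;> exact hFs _ _ (eq_zero_of_pow_eq_zero h1)
    set Y : Cls q p → LaurentSeries k := fun c =>
      Ω.rd (ser (trComp (C.rep (C.lg g 1)) (T.R c))) with hY
    have hprim : IsPrimitiveRoot (Ω.φ (T.μS 1)) p :=
      IsPrimitiveRoot.iff_orderOf.2 (orderOf_eq_prime (by rw [← map_pow, T.μS_pow, map_one])
        fun h => one_ne_zero (T.φ_μS_injective (Ω := Ω) hqp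
          (show Ω.φ (T.μS 1) = Ω.φ (T.μS 0) by rw [h, T.μS_zero, map_one])))
    have hprimL := hprim.map_of_injective (f := (HahnSeries.C : k →+* LaurentSeries k))
      HahnSeries.C_injective
    haveI : NeZero p := ⟨hp.ne_zero⟩
    have hex : ∀ c, ∃ i, HahnSeries.C (Ω.φ (T.μS 1) ^ i) * Y 1 = Y c := fun c => by
      obtain ⟨i, -, hi⟩ := hprimL.eq_pow_of_pow_eq_one (ξ := Y c / Y 1) (by
        rw [div_pow, hY, T.rd_pow_kind1 ρ hFs g hqm hm c, ← T.rd_pow_kind1 ρ hFs g hqm hm 1,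
          div_self (pow_ne_zero _ (hne 1))])
      exact ⟨i, by rw [map_pow, hi, div_mul_cancel₀ _ (hne 1)]⟩
    choose i hi using hex
    refine ⟨((∑ c, Ω.φ (T.μS 1) ^ i c) / (m : k)) ^ p, ?_⟩
    have h := hbr g 1
    rw [Finset.sum_congr rfl fun c _ => (hi c).symm, ← Finset.sum_mul, ← map_sum] at h
    rw [hrsd, ← h, mul_pow, mul_pow, mul_pow, ← map_pow, ← map_pow,
      show (∑ c, Ω.φ (T.μS 1) ^ i c) ^ p = ((∑ c, Ω.φ (T.μS 1) ^ i c) / (m : k)) ^ p * (m : k) ^ p by
        rw [← mul_pow, div_mul_cancel₀ _ hmk],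
      map_mul, map_pow HahnSeries.C (m : k) p, ← T.rd_pow_kind1 ρ hFs g hqm hm 1]
    simp only [hY]
    ring

end Setting

end FLTAgent.Entry.QOne
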