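import Fermat.Agent.Entry.QOne.Stabiliser
import Fermat.Agent.Entry.QOne.Orders

/-!
# Representatives of the pairs, their roots and the action of the constants

The representative of `(y₁, y₂)` is `(1, Ls; Lt, 1 + L²st)`: it fixes the level structure and its
two roots are `y₂ / M₀` and `y₁ / M₀`. An automorphism of the constants raising the `q`th roots of
unity to the power `a` multiplies the roots by `a`.
-/

set_option autoImplicit false
set_option linter.unusedSectionVars false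
set_option linter.style.haveILetI false
set_option synthInstance.maxHeartbeats 400000

noncomputable section

open UpperHalfPlane hiding I I_re I_im
open Function FLTAgent.ModEq FLTAgent.GoodModel ModularCurve FLTAgent.Carayol
open scoped MatrixGroups Classical

namespace FLTAgent.Entry.QOne

variable {q M0 N' : ℕ} [NeZero M0] [NeZero N'] [NeZero q] [Fact q.Prime]

/-- The representative of a pair. -/
def repG (q L : ℕ) [Fact q.Prime] (y : Pair q) : SL(2, ℤ) :=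
  let s : ℤ := (y.1.1 * ((L : ZMod q))⁻¹).val
  let t : ℤ := ((y.1.2 - y.1.1) * (L : ZMod q))⁻¹.val
  ⟨!![1, L * s; L * t, 1 + L * (L * (s * t))], by rw [Matrix.det_fin_two_of]; ring⟩

section
variable (C : Ctx q M0 N') (y : Pair q)

include C in
theorem repG_cast : ((repG q (M0 * N') y 0 0 : ℤ) : ZMod q) = 1 ∧
    ((repG q (M0 * N') y 0 1 : ℤ) : ZMod q) = y.1.1 ∧
    ((repG q (M0 * N') y 1 0 : ℤ) : ZMod q) = (y.1.2 - y.1.1)⁻¹ ∧
    ((repG q (M0 * N') y 1 1 : ℤ) : ZMod q) = (y.1.2 - y.1.1)⁻¹ * y.1.2 := by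
  have hL := C.ne_zero_mod.1
  have hy : y.1.2 - y.1.1 ≠ 0 := sub_ne_zero.2 (Ne.symm y.2)
  simp only [repG, Matrix.SpecialLinearGroup.coe_mk, Matrix.of_apply, Matrix.cons_val',
    Matrix.cons_val_zero, Matrix.cons_val_one, Matrix.cons_val_fin_one, Int.cast_add, Int.cast_mul,
    Int.cast_one, Int.cast_natCast, ZMod.natCast_zmod_val]
  refine ⟨trivial, ?_, ?_, ?_⟩ <;> field_simp
  ring

theorem repG_mem_L {L : ℕ} : repG q L y ∈ CongruenceSubgroup.Gamma L := by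
  rw [CongruenceSubgroup.Gamma_mem]
  simp [repG]

theorem repG_mem : repG q (M0 * N') y ∈ CongruenceSubgroup.Gamma M0 :=
  Ctx.mem_M0_of_mem_m (repG_mem_L y)

theorem repG_congr : ((M0 * N' : ℕ) : ℤ) ∣ repG q (M0 * N') y 1 0 ∧
    ((repG q (M0 * N') y 1 1 : ℤ) : ZMod (M0 * N')) = 1 :=
  ⟨by simp [repG], (CongruenceSubgroup.Gamma_mem.1 (repG_mem_L y)).2.2.2⟩

include C in
theorem isRep_repG : IsRep (M0 * N') (repG q (M0 * N')) := fun y => by
  obtain ⟨h00, h01, h10, h11⟩ := repG_cast C y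
  refine ⟨CongruenceSubgroup.Gamma0_mem.2
    ((ZMod.intCast_zmod_eq_zero_iff_dvd _ _).2 (repG_congr y).1), ?_, ?_, ?_, ?_⟩
  · rw [h00]; exact one_ne_zero
  · rw [h10]; exact inv_ne_zero (sub_ne_zero.2 (Ne.symm y.2))
  · rw [h00, one_mul, h01]
  · rw [h10, h11]

theorem eta_repG : compg (repG q (M0 * N') y) C.eta = C.eta :=
  eta_of_lower C (repG_mem y) (repG_congr y).1 (Or.inl (repG_congr y).2)

/-- The first root of a translate. -/
theorem compg_sX_of_ne {γ : SL(2, ℤ)} (hγ : γ ∈ CongruenceSubgroup.Gamma M0)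
    (hc : ((γ 1 0 : ℤ) : ZMod q) ≠ 0) :
    compg γ C.sX = C.rX (some (((γ 1 1 : ℤ) : ZMod q) / (γ 1 0 : ℤ) / ((M0 : ℕ) : ZMod q))) := by
  obtain ⟨hm, hM0, -⟩ := C.ne_zero_mod
  set r : Option (ZMod q) := some (((γ 1 1 : ℤ) : ZMod q) / (γ 1 0 : ℤ) / ((M0 : ℕ) : ZMod q))
  have hdvd : (q : ℤ) ∣ (γ * (C.gr r)⁻¹) 1 0 := by
    rw [← ZMod.intCast_zmod_eq_zero_iff_dvd, mul_inv_apply10]
    simp only [r, Ctx.gr, gq, Matrix.SpecialLinearGroup.coe_mk, Matrix.of_apply,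
      Matrix.cons_val', Matrix.cons_val_zero, Matrix.cons_val_one, Matrix.empty_val',
      Matrix.cons_val_fin_one, Ctx.idxK]
    generalize M0 * N' = m at hm ⊢
    push_cast
    rw [ZMod.natCast_zmod_val]
    field_simp
    ring
  have h1 := (C.side_fix (mul_mem hγ (inv_mem (C.gr_mem0 r))) hdvd).1
  conv_rhs => rw [Ctx.rX, ← h1, compg_compg, inv_mul_cancel_right]

/-- The second root of a translate. -/
theorem compg_rX0_of_ne {γ : SL(2, ℤ)} (hγ : γ ∈ CongruenceSubgroup.Gamma M0)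
    (ha : ((γ 0 0 : ℤ) : ZMod q) ≠ 0) :
    compg γ (C.rX (some 0)) =
      C.rX (some (((γ 0 1 : ℤ) : ZMod q) / (γ 0 0 : ℤ) / ((M0 : ℕ) : ZMod q))) := by
  obtain ⟨hm, hM0, -⟩ := C.ne_zero_mod
  have hd0 : ((C.gr (some 0) 1 1 : ℤ) : ZMod q) = 0 := by
    simp only [Ctx.gr, gq, Matrix.SpecialLinearGroup.coe_mk, Matrix.of_apply, Matrix.cons_val',
      Matrix.cons_val_one, Matrix.cons_val_fin_one, Ctx.idxK]
    generalize M0 * N' = m at hm ⊢
    push_cast
    rw [ZMod.natCast_zmod_val]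
    field_simp
    ring
  have hc0 : ((C.gr (some 0) 1 0 : ℤ) : ZMod q) ≠ 0 := by
    simpa [Ctx.gr, gq] using hm
  have h10 : (((C.gr (some 0) * γ) 1 0 : ℤ) : ZMod q) =
      (C.gr (some 0) 1 0 : ℤ) * (γ 0 0 : ℤ) := by
    simp [Matrix.SpecialLinearGroup.coe_mul, Matrix.mul_apply, Fin.sum_univ_two, hd0]
  have h11 : (((C.gr (some 0) * γ) 1 1 : ℤ) : ZMod q) =
      (C.gr (some 0) 1 0 : ℤ) * (γ 0 1 : ℤ) := by
    simp [Matrix.SpecialLinearGroup.coe_mul, Matrix.mul_apply, Fin.sum_univ_two, hd0]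
  rw [Ctx.rX, compg_compg, compg_sX_of_ne C (mul_mem (C.gr_mem0 _) hγ)
    (by rw [h10]; exact mul_ne_zero hc0 ha), h10, h11, mul_div_mul_left _ _ hc0]

theorem roots_repG : compg (repG q (M0 * N') y) C.sX = C.rX (some (y.1.2 / ((M0 : ℕ) : ZMod q))) ∧
    compg (repG q (M0 * N') y) (C.rX (some 0)) = C.rX (some (y.1.1 / ((M0 : ℕ) : ZMod q))) := by
  obtain ⟨h00, h01, h10, h11⟩ := repG_cast C y
  have hy : y.1.2 - y.1.1 ≠ 0 := sub_ne_zero.2 (Ne.symm y.2)
  refine ⟨?_, ?_⟩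
  · rw [compg_sX_of_ne C (repG_mem y) (by rw [h10]; exact inv_ne_zero hy), h10, h11,
      mul_div_cancel_left₀ _ (inv_ne_zero hy)]
  · rw [compg_rX0_of_ne C (repG_mem y) (by rw [h00]; exact one_ne_zero), h00, h01, div_one]

end

/-- An automorphism of the constants over the small ring and its action on the roots of unity. -/
structure Move (C : Ctx q M0 N') where
  σ : C.S ≃+* C.S
  hσ : ∀ w, σ (C.inc w) = C.inc w
  a : (ZMod q)ˣ
  ha : σ (C.zq : C.S) = (C.zq : C.S) ^ (a : ZMod q).val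

variable {C : Ctx q M0 N'}

theorem Move.coeffMap_rHom (s : Move C) (r : Option (ZMod q)) (G : LaurentSeries C.W) :
    coeffMap s.σ.toRingHom (C.rHom r G) = C.rHom (r.map ((s.a : ZMod q) * ·)) G := by
  rcases r with _ | i
  · obtain ⟨π, -, h1, -, hπ⟩ := C.exists_root_perm s.hσ
    rw [hπ, h1]; rfl
  · rw [Option.map_some, C.rHom_some, C.rHom_some, coeffMap_substHom, C.fix_inc s.hσ]
    congr 2
    refine Units.ext ?_
    have hmap : ((Units.map s.σ.toRingHom.toMonoidHom C.zq : C.Sˣ) : C.S) =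
        (C.zq : C.S) ^ (s.a : ZMod q).val := s.ha
    rw [map_pow, Units.val_pow_eq_pow_val, hmap, ← pow_mul, Units.val_pow_eq_pow_val,
      pow_eq_pow_mod _ C.zq_primitive.pow_eq_one]
    congr 1
    rw [ZMod.val_mul]

/-- Translates with the same level structure and roots multiplied by `a` are conjugate. -/
theorem Move.coeffMap_embAt (s : Move C) {γ γ' : SL(2, ℤ)} (hγ : γ ∈ CongruenceSubgroup.Gamma M0)
    (hγ' : γ' ∈ CongruenceSubgroup.Gamma M0) (he : compg γ' C.eta = compg γ C.eta)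
    {r₁ r₂ : Option (ZMod q)} (h₁ : compg γ C.sX = C.rX r₁)
    (h₂ : compg γ (C.rX (some 0)) = C.rX r₂) (h₁' : compg γ' C.sX = C.rX (r₁.map ((s.a : ZMod q) * ·)))
    (h₂' : compg γ' (C.rX (some 0)) = C.rX (r₂.map ((s.a : ZMod q) * ·))) (x : C.R) :
    coeffMap s.σ.toRingHom (C.embAt γ x) = C.embAt γ' x := by
  obtain ⟨δ, hδ, hδa, -⟩ := C.exists_galois_move s.hσ hγ
  rw [hδa]
  refine C.embAt_congr x (C.compg_congr hδ hγ' ?_ x)
  have hsX : C.rX none = C.sX := by simp [Ctx.rX, Ctx.gr, compg_one]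
  have hn := C.node_mem0 (C.compg_mem_nodes hγ C.eta_mem_nodes)
  have key : ∀ (φ : C.R) (f g : ℍ → ℂ) (hf : f ∈ trRing C.S (M0 * (N' * q)))
      (hg : g ∈ trRing C.S (M0 * (N' * q))), compg γ (φ : ℍ → ℂ) = f →
      coeffMap s.σ.toRingHom (ser ⟨f, hf⟩) = ser ⟨g, hg⟩ → compg δ (φ : ℍ → ℂ) = g := by
    intro φ f g hf hg hφ h
    have h1 := hδa φ
    rw [show C.embAt γ φ = ser ⟨f, hf⟩ from C.embAt_eq φ.2 hf hφ, h] at h1
    exact (congrArg Subtype.val (ser_injective h1)).symm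
  have kr : ∀ b r, compg γ (C.rX (C.sb b)) = C.rX r →
      compg δ (C.rX (C.sb b)) = C.rX (r.map ((s.a : ZMod q) * ·)) := fun b r hr =>
    key (C.xR b) _ _ (C.rX_mem r) (C.rX_mem _) hr (by rw [C.ser_rX, C.ser_rX, s.coeffMap_rHom])
  simp only [Ctx.triple, Prod.mk.injEq]
  refine ⟨?_, ?_, ?_⟩
  · rw [he]
    exact key C.etaR _ _ (C.lift_level hn) (C.lift_level hn) rfl (C.ser_lift_fix s.hσ hn)
  · have h := kr false r₁ (by rw [Ctx.sb, hsX]; exact h₁)
    rw [Ctx.sb, hsX] at h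
    rw [h, h₁']
  · rw [h₂']
    exact kr true r₂ h₂

/-- The action on the pairs. -/
def Move.act (s : Move C) (y : Pair q) : Pair q :=
  ⟨((s.a : ZMod q) * y.1.1, (s.a : ZMod q) * y.1.2), fun h => y.2 (mul_left_cancel₀ s.a.ne_zero h)⟩

theorem Move.coeffMap_repG (s : Move C) (y : Pair q) (x : C.R) :
    coeffMap s.σ.toRingHom (C.embAt (repG q (M0 * N') y) x) =
      C.embAt (repG q (M0 * N') (s.act y)) x := by
  obtain ⟨e1, e2⟩ := roots_repG C y
  obtain ⟨e1', e2'⟩ := roots_repG C (s.act y)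
  refine s.coeffMap_embAt (repG_mem y) (repG_mem _) (by rw [eta_repG, eta_repG]) e1 e2 ?_ ?_ x
  · rw [e1', Option.map_some, show (s.act y).1.2 = (s.a : ZMod q) * y.1.2 from rfl, mul_div_assoc]
  · rw [e2', Option.map_some, show (s.act y).1.1 = (s.a : ZMod q) * y.1.1 from rfl, mul_div_assoc]

theorem Move.lab_act {p : ℕ} (s : Move C) (y : Pair q) :
    lab (p := p) (s.act y) = (QuotientGroup.mk s.a : Cls q p) * lab y := by
  rw [lab, lab, ← QuotientGroup.mk_mul]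
  congr 1
  ext
  simp [Move.act, mul_sub]

variable {k : Type} [Field k] {Ω : Res C k} [IsDiscreteValuationRing C.S]

/-- The automorphisms are trivial on the residue field. -/
theorem Move.φ_σ (s : Move C) (ρ : Ram Ω) (x : C.S) : Ω.φ (s.σ x) = Ω.φ x := by
  obtain ⟨w, hw⟩ := Ω.surjW (Ω.φ x)
  obtain ⟨z, hz⟩ := ρ.ker_φ (show Ω.φ (x - C.inc w) = 0 by
    rw [map_sub, sub_eq_zero]; exact hw.symm)
  have hirr : Irreducible (s.σ ρ.ϖ) := (MulEquiv.irreducible_iff s.σ).2 ρ.irr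
  obtain ⟨u, hu⟩ := IsDiscreteValuationRing.associated_of_irreducible C.S ρ.irr hirr
  rw [show x = C.inc w + ρ.ϖ * z by rw [← hz]; ring]
  simp only [map_add, map_mul, s.hσ, ← hu, ρ.φϖ, zero_mul]

variable [IsAlgClosed k] [IsNoetherianRing C.W]

/-- Every exponent prime to `q` occurs. -/
theorem exists_move (ρ : Ram Ω) (a : (ZMod q)ˣ) : ∃ s : Move C, s.a = a := by
  have hz := C.zq_primitive
  have hzpow : ∀ (i j : ZMod q), ((C.zq : C.S) ^ i.val) ^ j.val = (C.zq : C.S) ^ (i * j).val := by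
    intro i j
    rw [← pow_mul, pow_eq_pow_mod _ hz.pow_eq_one, ← ZMod.val_mul]
  let G : Subgroup (ZMod q)ˣ :=
    { carrier := {a | ∃ s : Move C, s.a = a}
      one_mem' := ⟨⟨RingEquiv.refl _, fun _ => rfl, 1, by simp [ZMod.val_one]⟩, rfl⟩
      mul_mem' := by
        rintro _ _ ⟨s, rfl⟩ ⟨t, rfl⟩
        refine ⟨⟨t.σ.trans s.σ, fun w => by simp [t.hσ, s.hσ], s.a * t.a, ?_⟩, rfl⟩
        rw [RingEquiv.trans_apply, t.ha, map_pow, s.ha, hzpow, Units.val_mul]
      inv_mem' := by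
        rintro _ ⟨s, rfl⟩
        refine ⟨⟨s.σ.symm, fun w => by rw [RingEquiv.symm_apply_eq, s.hσ], s.a⁻¹, ?_⟩, rfl⟩
        rw [RingEquiv.symm_apply_eq, map_pow, s.ha, hzpow, Units.mul_inv, ZMod.val_one, pow_one] }
  set P : C.S := ∏ i : G, (1 - (C.zq : C.S) ^ ((i : (ZMod q)ˣ) : ZMod q).val) with hP
  have hPW : P ∈ C.inc.range := by
    refine Ω.fixed _ fun σ hσ => ?_
    obtain ⟨j, -, hj⟩ := hz.eq_pow_of_pow_eq_one
      (show (σ (C.zq : C.S)) ^ q = 1 by rw [← map_pow, hz.pow_eq_one, map_one])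
    have hj0 : ((j : ℕ) : ZMod q) ≠ 0 := fun h => by
      rw [ZMod.natCast_eq_zero_iff] at h
      have h2 : σ (C.zq : C.S) = 1 := by rw [← hj]; exact (hz.pow_eq_one_iff_dvd j).2 h
      exact hz.ne_one C.hq.one_lt (σ.injective (h2.trans (map_one σ).symm))
    let s : Move C := ⟨σ, hσ, Units.mk0 _ hj0, by
      rw [Units.val_mk0, ZMod.val_natCast, ← pow_eq_pow_mod _ hz.pow_eq_one, hj]⟩
    have hs : s.a ∈ G := ⟨s, rfl⟩
    rw [hP, map_prod]
    refine Fintype.prod_equiv (Equiv.mulLeft (⟨s.a, hs⟩ : G)) _ _ fun i => ?_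
    show σ _ = _
    rw [map_sub, map_one, map_pow, show σ (C.zq : C.S) = _ from s.ha, hzpow]
    rfl
  have hord : ∀ i : (ZMod q)ˣ, ∃ u : C.S, Ω.φ u ≠ 0 ∧
      1 - (C.zq : C.S) ^ (i : ZMod q).val = ρ.ϖ * u := fun i => by
    obtain ⟨u, hu⟩ := ρ.ker_φ (show Ω.φ (1 - (C.zq : C.S) ^ (i : ZMod q).val) = 0 by
      rw [map_sub, map_one, map_pow, Ω.φ_zq, one_pow, sub_self])
    refine ⟨u, fun h0 => ρ.not_sq_dvd_zeta (z := (C.zq : C.S) ^ (i : ZMod q).val) (hz.pow_of_coprime _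
      ((C.hq.coprime_iff_not_dvd.2 fun h => i.ne_zero ?_).symm)) ?_, hu⟩
    · rw [← ZMod.natCast_zmod_val (i : ZMod q)]
      exact (ZMod.natCast_eq_zero_iff _ _).2 h
    · obtain ⟨u', rfl⟩ := ρ.ker_φ h0
      exact dvd_sub_comm.1 ⟨u', by rw [hu]; ring⟩
  choose u hu hu' using hord
  have hX : ρ.Ord (HahnSeries.C P) (Fintype.card G) := by
    refine ⟨HahnSeries.C (∏ i : G, u i), ?_, ?_⟩
    · rw [HahnSeries.C_apply, Res.rd, coeffMap_single, map_prod]
      exact fun h => Finset.prod_ne_zero_iff.2 (fun i _ => hu _) (HahnSeries.single_eq_zero_iff.1 h)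
    · rw [← map_pow, ← map_mul]
      congr 1
      simp only [hP, hu', Finset.prod_mul_distrib, Finset.prod_const, Finset.card_univ]
  have hdvd : q - 1 ∣ Fintype.card G := ρ.dvd_ord_of_small _ (fun j => by
    rw [HahnSeries.C_apply, HahnSeries.coeff_single]
    split_ifs with h
    · exact hPW
    · exact zero_mem _) hX
  have hG : G = ⊤ := by
    refine Subgroup.eq_top_of_le_card G ?_
    rw [Nat.card_eq_fintype_card, Nat.card_eq_fintype_card, ZMod.card_units]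
    exact Nat.le_of_dvd Fintype.card_pos hdvd
  exact (show a ∈ G from hG ▸ Subgroup.mem_top a)

end FLTAgent.Entry.QOne
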