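import Fermat.Agent.Entry.QOne.CoboundaryPairs
import Fermat.Agent.Entry.QOne.Twist.Reps
import Fermat.Agent.Entry.QOne.Twist.Constants

/-!
# The products of the translates of the root over the pairs of one label

With the correction by a coboundary they are permuted by the stabiliser. An automorphism of the
constants moves them to roots of unity times the products of the moved labels.
-/

set_option autoImplicit false
set_option linter.unusedSectionVars false
set_option linter.style.haveILetI false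
set_option synthInstance.maxHeartbeats 400000

noncomputable section

open UpperHalfPlane hiding I I_re I_im
open Function FLTAgent.ModEq FLTAgent.GoodModel ModularCurve FLTAgent.Carayol
open scoped MatrixGroups Classical

namespace FLTAgent.Entry.QOne

variable {q M0 N' : ℕ} [NeZero M0] [NeZero N'] [NeZero q] [Fact q.Prime]
variable {C : Ctx q M0 N'} {p : ℕ} [Fact p.Prime]

/-- A datum with roots of unity among the small constants and a primitive of its sums. -/
structure Setting (C : Ctx q M0 N') (p : ℕ) [Fact p.Prime] where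
  D : KDatum C p
  hμ : ∀ a : ZMod p, ∃ w : C.W, (w : ℂ) = rootC p a
  Ec : Cls q p → ZMod p
  hEc : ∀ (γ : CongruenceSubgroup.Gamma0 (q * (M0 * N'))) (c : Cls q p),
    (∑ y ∈ Finset.univ.filter (fun y : Pair q => lab (p := p) y = c),
      hs (coprime_level C) D.ψ
        (repG q (M0 * N') y * (γ : SL(2, ℤ)) * (repG q (M0 * N') (nxt γ y))⁻¹)) =
      Ec (c * chi p γ) - Ec c

namespace Setting

variable (T : Setting C p)

/-- The roots of unity in the small ring. -/
def μW (a : ZMod p) : C.W := (T.hμ a).choose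

/-- The roots of unity in the ring of constants. -/
def μS (a : ZMod p) : C.S := C.inc (T.μW a)

theorem coe_μS (a : ZMod p) : ((T.μS a : C.S) : ℂ) = rootC p a := (T.hμ a).choose_spec

theorem μS_add (a b : ZMod p) : T.μS (a + b) = T.μS a * T.μS b :=
  Subtype.ext (by rw [T.coe_μS, Subring.coe_mul, T.coe_μS, T.coe_μS, rootC_add])

theorem μS_zero : T.μS 0 = 1 := Subtype.ext (by rw [T.coe_μS, rootC_zero]; rfl)

theorem μS_injective : Injective T.μS := fun a b h =>
  rootC_injective p (by rw [← T.coe_μS, h, T.coe_μS])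

theorem μS_pow (a : ZMod p) : T.μS a ^ p = 1 :=
  Subtype.ext (by rw [SubmonoidClass.coe_pow, T.coe_μS, rootC_pow]; rfl)

theorem μS_primitive : IsPrimitiveRoot (T.μS 1) p :=
  IsPrimitiveRoot.iff_orderOf.2 (orderOf_eq_prime (T.μS_pow 1)
    fun h => one_ne_zero (T.μS_injective (h.trans T.μS_zero.symm)))

theorem μS_natCast (i : ℕ) : T.μS (i : ZMod p) = T.μS 1 ^ i := by
  induction i with
  | zero => rw [Nat.cast_zero, T.μS_zero, pow_zero]
  | succ i ih => rw [Nat.cast_succ, T.μS_add, ih, pow_succ]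

/-- The constant function. -/
def μc (a : ZMod p) : trRing C.S (M0 * (N' * q)) := Subring.inclusion C.R_le (C.cW (T.μW a))

theorem μc_apply (a : ZMod p) (τ : ℍ) : (T.μc a : ℍ → ℂ) τ = rootC p a := (T.hμ a).choose_spec

theorem ser_μc (a : ZMod p) : ser (T.μc a) = HahnSeries.C (T.μS a) := by
  rw [μc, C.ser_incl, C.embAt_cW]; rfl

theorem trComp_μc (γ : SL(2, ℤ)) (a : ZMod p) : trComp γ (T.μc a) = T.μc a :=
  Subtype.ext (funext fun τ => (T.μc_apply a _).trans (T.μc_apply a τ).symm)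

theorem μc_add (a b : ZMod p) : T.μc (a + b) = T.μc a * T.μc b :=
  Subtype.ext (funext fun τ => by
    rw [T.μc_apply, rootC_add, ← T.μc_apply a τ, ← T.μc_apply b τ]; rfl)

/-- The pairs with a label. -/
def fibL (_T : Setting C p) (c : Cls q p) : Finset (Pair q) :=
  Finset.univ.filter fun y : Pair q => lab (p := p) y = c

theorem mem_fibL {c : Cls q p} {y : Pair q} : y ∈ T.fibL c ↔ lab (p := p) y = c := by simp [fibL]

/-- The product over one label. -/
def R (c : Cls q p) : trRing C.S (M0 * (N' * q)) :=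
  T.μc (T.Ec c) * ∏ y ∈ T.fibL c, trComp (repG q (M0 * N') y) T.D.Φ

theorem R_pow (c : Cls q p) : T.R c ^ p =
    ∏ y ∈ T.fibL c, trComp (repG q (M0 * N') y) (Subring.inclusion C.R_le T.D.F) := by
  have h1 : T.μc (T.Ec c) ^ p = 1 := Subtype.ext (funext fun τ => by
    rw [SubmonoidClass.coe_pow, Pi.pow_apply, T.μc_apply, rootC_pow]; rfl)
  rw [R, mul_pow, h1, one_mul, ← Finset.prod_pow]
  exact Finset.prod_congr rfl fun y _ => by rw [← map_pow, T.D.hΦ]

end Setting

theorem gamma_congr {L : ℕ} {g g' : SL(2, ℤ)} (hg : g ∈ CongruenceSubgroup.Gamma L)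
    (hg' : g' ∈ CongruenceSubgroup.Gamma L) (γ : SL(2, ℤ)) (i j : Fin 2) :
    (((g * γ * g'⁻¹) i j : ℤ) : ZMod L) = (γ i j : ℤ) := by
  set f := Matrix.SpecialLinearGroup.map (n := Fin 2) (Int.castRingHom (ZMod L))
  have h : f (g * γ * g'⁻¹) = f γ := by
    rw [map_mul, map_mul, map_inv, show f g = 1 from MonoidHom.mem_ker.1 hg,
      show f g' = 1 from MonoidHom.mem_ker.1 hg', one_mul, inv_one, mul_one]
  exact congrArg (fun z : SL(2, ZMod L) => z i j) h

/-- An element of the stabiliser in `Γ₀(q L)`. -/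
def toG0 (hco : Nat.Coprime q (M0 * N')) {γ : SL(2, ℤ)} (h : γ ∈ KG q M0 (M0 * N')) :
    CongruenceSubgroup.Gamma0 (q * (M0 * N')) :=
  ⟨γ, CongruenceSubgroup.Gamma0_mem.2 ((ZMod.intCast_zmod_eq_zero_iff_dvd _ _).2 (by
    rw [Nat.cast_mul q (M0 * N')]
    exact ((Int.isCoprime_iff_nat_coprime.mpr
      (by rwa [Int.natAbs_natCast, Int.natAbs_natCast])).mul_dvd h.2.1.2.1 h.2.1.2.2)))⟩

theorem dl_mem_KG (C : Ctx q M0 N') {γ : SL(2, ℤ)} (hγ : γ ∈ KG q M0 (M0 * N')) (y : Pair q) :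
    repG q (M0 * N') y * γ *
      (repG q (M0 * N') (nxt (toG0 (coprime_level C) hγ) y))⁻¹ ∈ KG q M0 (M0 * N') := by
  refine ⟨mul_mem (mul_mem (repG_mem y) hγ.1) (inv_mem (repG_mem _)),
    (isRep_repG C).coc_mem (toG0 (coprime_level C) hγ) y, ?_⟩
  rw [gamma_congr (repG_mem_L y) (repG_mem_L _)]
  exact hγ.2.2

namespace Setting

variable (T : Setting C p)

set_option maxHeartbeats 800000 in
/-- The stabiliser moves the products by the quotient of the diagonal. -/
theorem trComp_R {γ : SL(2, ℤ)} (hγ : γ ∈ KG q M0 (M0 * N')) (c : Cls q p) :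
    trComp γ (T.R c) = T.R (c * chi p (toG0 (coprime_level C) hγ)) := by
  set γ₀ := toG0 (coprime_level C) hγ
  have hy : ∀ y : Pair q, trComp γ (trComp (repG q (M0 * N') y) T.D.Φ) =
      T.μc (hs (coprime_level C) T.D.ψ
        (repG q (M0 * N') y * γ * (repG q (M0 * N') (nxt γ₀ y))⁻¹)) *
        trComp (repG q (M0 * N') (nxt γ₀ y)) T.D.Φ := by
    intro y
    refine Subtype.ext (funext fun τ => ?_)
    show (T.D.Φ : ℍ → ℂ) (repG q (M0 * N') y • γ • τ) = (T.μc _ : ℍ → ℂ) τ * _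
    rw [T.μc_apply, show repG q (M0 * N') y • γ • τ =
      (repG q (M0 * N') y * γ * (repG q (M0 * N') (nxt γ₀ y))⁻¹) •
        (repG q (M0 * N') (nxt γ₀ y) • τ) by simp only [← mul_smul, inv_mul_cancel_right]]
    exact T.D.hchar _ (dl_mem_KG C hγ y) _
  have hsum : ∀ s : Finset (Pair q), ∀ f : Pair q → ZMod p,
      ∏ y ∈ s, T.μc (f y) = T.μc (∑ y ∈ s, f y) := by
    intro s f
    induction s using Finset.induction with
    | empty =>
      rw [Finset.prod_empty, Finset.sum_empty]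
      exact Subtype.ext (funext fun τ => by rw [T.μc_apply, rootC_zero]; rfl)
    | insert i s hi ih => rw [Finset.prod_insert hi, Finset.sum_insert hi, ih, T.μc_add]
  have hprod : ∏ y ∈ T.fibL c, trComp (repG q (M0 * N') (nxt γ₀ y)) T.D.Φ =
      ∏ y ∈ T.fibL (c * chi p γ₀), trComp (repG q (M0 * N') y) T.D.Φ := by
    refine Finset.prod_equiv (nxtPerm (isRep_repG C) γ₀) (fun y => ?_) fun y _ => rfl
    rw [T.mem_fibL, T.mem_fibL, show nxtPerm (isRep_repG C) γ₀ y = nxt γ₀ y from rfl, lab_nxt, mul_left_inj]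
  rw [R, R, map_mul, T.trComp_μc, map_prod, Finset.prod_congr rfl fun y _ => hy y,
    Finset.prod_mul_distrib, hsum, hprod]
  refine (mul_assoc _ _ _).symm.trans ?_
  rw [← T.μc_add]
  have he := T.hEc γ₀ c
  rw [show (T.Ec (c * chi p γ₀)) = T.Ec c + (T.Ec (c * chi p γ₀) - T.Ec c) by ring, ← he]
  rfl

variable {k : Type} [Field k] {Ω : Res C k}

theorem rd_ser_R_ne (hF : ∀ g j, Ω.rs g j T.D.F ≠ 0) (c : Cls q p) : Ω.rd (ser (T.R c)) ≠ 0 := by
  intro h
  have h1 := congrArg Ω.rd (congrArg ser (T.R_pow c))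
  rw [map_pow, map_pow, h, zero_pow (Fact.out : p.Prime).ne_zero, map_prod, map_prod, eq_comm,
    Finset.prod_eq_zero_iff] at h1
  obtain ⟨y, -, hy⟩ := h1
  obtain ⟨l, hl⟩ := Ω.exists_ker_eq (repG q (M0 * N') y)
  refine hF (C.sheet l) (C.kind l) ?_
  have h2 : T.D.F ∈ Ω.ker (C.rep l) := by rw [← hl]; exact hy
  rw [← Ω.red_rep]
  exact h2

theorem ser_R_ne (hF : ∀ g j, Ω.rs g j T.D.F ≠ 0) (c : Cls q p) : ser (T.R c) ≠ 0 := fun h =>
  T.rd_ser_R_ne hF c (by rw [h, map_zero])

include T in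
/-- Two series with equal `p`th powers differ by a root of unity. -/
theorem exists_mul_of_pow_eq {X Y : LaurentSeries C.S} (h : X ^ p = Y ^ p) :
    ∃ a : ZMod p, X = HahnSeries.C (T.μS a) * Y := by
  have hp : p.Prime := Fact.out
  haveI : NeZero p := ⟨hp.ne_zero⟩
  have hprim := T.μS_primitive.map_of_injective
    (f := (HahnSeries.C : C.S →+* LaurentSeries C.S)) HahnSeries.C_injective
  have h0 := hprim.pow_sub_pow_eq_prod_sub_mul X Y hp.pos
  rw [h, sub_self, eq_comm, Finset.prod_eq_zero_iff] at h0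
  obtain ⟨μ, hμ, h1⟩ := h0
  rw [Polynomial.mem_nthRootsFinset hp.pos] at hμ
  obtain ⟨i, -, rfl⟩ := hprim.eq_pow_of_pow_eq_one hμ
  exact ⟨i, by rw [T.μS_natCast, map_pow, ← sub_eq_zero]; exact h1⟩

theorem ser_R_pow (c : Cls q p) :
    ser (T.R c) ^ p = ∏ y ∈ T.fibL c, C.embAt (repG q (M0 * N') y) T.D.F := by
  rw [← map_pow, T.R_pow, map_prod]; rfl

theorem exists_twist (s : Move C) (c : Cls q p) :
    ∃ h : ZMod p, coeffMap s.σ.toRingHom (ser (T.R c)) =
      HahnSeries.C (T.μS h) * ser (T.R ((QuotientGroup.mk s.a : Cls q p) * c)) := by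
  refine T.exists_mul_of_pow_eq ?_
  rw [← map_pow, T.ser_R_pow, T.ser_R_pow, map_prod]
  refine Finset.prod_bij (fun y _ => s.act y) (fun y hy => ?_) (fun y _ y' _ h => ?_)
    (fun y hy => ?_) fun y _ => s.coeffMap_repG y T.D.F
  · rw [T.mem_fibL] at hy ⊢
    rw [s.lab_act, hy]
  · have h1 := congrArg (fun z : Pair q => z.1) h
    simp only [Move.act, Prod.mk.injEq, mul_eq_mul_left_iff, Units.ne_zero, or_false] at h1
    exact Subtype.ext (Prod.ext h1.1 h1.2)
  · refine ⟨⟨(((s.a⁻¹ : (ZMod q)ˣ) : ZMod q) * y.1.1, ((s.a⁻¹ : (ZMod q)ˣ) : ZMod q) * y.1.2),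
      fun h => y.2 (mul_left_cancel₀ (Units.ne_zero _) h)⟩, ?_, ?_⟩
    · rw [T.mem_fibL] at hy ⊢
      refine mul_left_cancel (a := (QuotientGroup.mk s.a : Cls q p)) ?_
      rw [← s.lab_act, ← hy]
      congr 1
      exact Subtype.ext (Prod.ext (Units.mul_inv_cancel_left _ _) (Units.mul_inv_cancel_left _ _))
    · exact Subtype.ext (Prod.ext (Units.mul_inv_cancel_left _ _) (Units.mul_inv_cancel_left _ _))

/-- The twist. -/
def tw (s : Move C) (c : Cls q p) : ZMod p := (T.exists_twist s c).choose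

theorem tw_spec (s : Move C) (c : Cls q p) : coeffMap s.σ.toRingHom (ser (T.R c)) =
    HahnSeries.C (T.μS (T.tw s c)) * ser (T.R ((QuotientGroup.mk s.a : Cls q p) * c)) :=
  (T.exists_twist s c).choose_spec

variable [IsDiscreteValuationRing C.S]

theorem rd_tw (ρ : Ram Ω) (s : Move C) (c : Cls q p) : Ω.rd (ser (T.R c)) =
    HahnSeries.C (Ω.φ (T.μS (T.tw s c))) *
      Ω.rd (ser (T.R ((QuotientGroup.mk s.a : Cls q p) * c))) := by
  have h := congrArg Ω.rd (T.tw_spec s c)
  rw [map_mul, Res.rd, coeffMap_C, coeffMap_coeffMap] at h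
  rw [Res.rd]
  refine Eq.trans ?_ h
  exact congrArg (fun f => coeffMap f (ser (T.R c))) (RingHom.ext fun x => (s.φ_σ ρ x).symm)

end Setting

end FLTAgent.Entry.QOne
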